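import Mathlib
import Fermat.Prelude.Def_ModularCurve_PeriodHomPair

/-!
# S21, piece ES1b: periods vanish on parabolic elements
-/

set_option autoImplicit false

open UpperHalfPlane CongruenceSubgroup Filter Topology ModularCurve ModularCurve.Period
open scoped MatrixGroups ModularForm Manifold

noncomputable section

namespace Fermat.Agent.S21

/-- A primitive integer eigenvector for the eigenvalue `1` of a trace-`2` element. -/
theorem espar_exists_eigenvector (a b c d : ℤ) (hdet : a * d - b * c = 1) (htr : a + d = 2) :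
    ∃ p q u v : ℤ, a * p + b * q = p ∧ c * p + d * q = q ∧ p * u + q * v = 1 := by
  by_cases h0 : b = 0 ∧ a = 1
  · obtain ⟨hb, ha⟩ := h0
    refine ⟨0, 1, 0, 1, ?_, ?_, ?_⟩
    · simp [hb]
    · have hd : d = 1 := by omega
      simp [hd]
    · simp
  · have hg : 0 < Int.gcd b (1 - a) := by
      rw [Int.gcd_pos_iff]
      by_contra hcon
      simp only [not_or, not_not] at hcon
      exact h0 ⟨hcon.1, by omega⟩
    obtain ⟨p, q, hpq, hb, ha⟩ := Int.exists_gcd_one hg
    set g : ℤ := (Int.gcd b (1 - a) : ℤ) with hgdef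
    have hg0 : g ≠ 0 := by
      rw [hgdef]
      exact_mod_cast hg.ne'
    have hbez : p * Int.gcdA p q + q * Int.gcdB p q = 1 := by
      have := Int.gcd_eq_gcd_ab p q
      rw [hpq] at this
      exact_mod_cast this.symm
    refine ⟨p, q, Int.gcdA p q, Int.gcdB p q, ?_, ?_, hbez⟩
    · have h1 : a = 1 - q * g := by linarith
      rw [h1, hb]
      ring
    · apply mul_left_cancel₀ hg0
      have h1 : a = 1 - q * g := by linarith
      have h2 : d = 1 + q * g := by linarith
      have h3 : b * c = a * d - 1 := by linarith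
      have h4 : p * g * c = (1 - q * g) * (1 + q * g) - 1 := by
        rw [← hb, ← h1, ← h2]
        exact h3
      rw [h2]
      linear_combination h4

/-- Elements of `SL(2,ℤ)` of trace `2` are `δ T^m δ⁻¹`. -/
theorem espar_exists_conj_T_zpow_of_trace_two (γ : SL(2, ℤ))
    (h : (γ : Matrix (Fin 2) (Fin 2) ℤ).trace = 2) :
    ∃ (δ : SL(2, ℤ)) (m : ℤ), γ * δ = δ * ModularGroup.T ^ m := by
  have hdet : γ 0 0 * γ 1 1 - γ 0 1 * γ 1 0 = 1 := by
    have := γ.det_coe
    rwa [Matrix.det_fin_two] at this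
  have htr : γ 0 0 + γ 1 1 = 2 := by
    rwa [Matrix.trace_fin_two] at h
  obtain ⟨p, q, u, v, h1, h2, h3⟩ := espar_exists_eigenvector _ _ _ _ hdet htr
  have hδ : (!![p, -v; q, u] : Matrix (Fin 2) (Fin 2) ℤ).det = 1 := by
    rw [Matrix.det_fin_two_of]
    linarith
  set X : ℤ := -(γ 0 0) * v + γ 0 1 * u with hX
  set Y : ℤ := -(γ 1 0) * v + γ 1 1 * u with hY
  have key : -q * X + p * Y = 1 := by
    rw [hX, hY]
    linear_combination h3 + (v * q + u * p) * htr - v * h2 - u * h1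
  refine ⟨⟨!![p, -v; q, u], hδ⟩, u * X + v * Y, ?_⟩
  ext i j
  fin_cases i <;> fin_cases j
  · simp [Matrix.mul_apply, Fin.sum_univ_two, ModularGroup.coe_T_zpow]
    linarith
  · simp [Matrix.mul_apply, Fin.sum_univ_two, ModularGroup.coe_T_zpow]
    linear_combination (-v) * key - X * h3
  · simp [Matrix.mul_apply, Fin.sum_univ_two, ModularGroup.coe_T_zpow]
    linarith
  · simp [Matrix.mul_apply, Fin.sum_univ_two, ModularGroup.coe_T_zpow]
    linear_combination u * key - Y * h3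

/-- Elements of `SL(2,ℤ)` of trace `±2` are `±δ T^m δ⁻¹`. -/
theorem exists_conj_T_zpow (γ : SL(2, ℤ))
    (h : (γ : Matrix (Fin 2) (Fin 2) ℤ).trace ^ 2 = 4) :
    ∃ (δ : SL(2, ℤ)) (m : ℤ), γ * δ = δ * ModularGroup.T ^ m ∨ γ * δ = -(δ * ModularGroup.T ^ m) := by
  have h2 : (γ : Matrix (Fin 2) (Fin 2) ℤ).trace = 2 ∨ (γ : Matrix (Fin 2) (Fin 2) ℤ).trace = -2 := by
    have h3 : ((γ : Matrix (Fin 2) (Fin 2) ℤ).trace - 2) * ((γ : Matrix (Fin 2) (Fin 2) ℤ).trace + 2)
        = 0 := by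
      linear_combination h
    rcases mul_eq_zero.mp h3 with h4 | h4
    · left; linarith
    · right; linarith
  rcases h2 with h2 | h2
  · obtain ⟨δ, m, hm⟩ := espar_exists_conj_T_zpow_of_trace_two γ h2
    exact ⟨δ, m, Or.inl hm⟩
  · have h3 : ((-γ : SL(2, ℤ)) : Matrix (Fin 2) (Fin 2) ℤ).trace = 2 := by
      rw [Matrix.SpecialLinearGroup.coe_neg, Matrix.trace_neg, h2]
      rfl
    obtain ⟨δ, m, hm⟩ := espar_exists_conj_T_zpow_of_trace_two (-γ) h3
    refine ⟨δ, m, Or.inr ?_⟩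
    rw [← hm, neg_mul, neg_neg]

/-- Translation by an integer preserves the filter `atImInfty`. -/
theorem espar_tendsto_T_zpow_smul (m : ℤ) :
    Tendsto (fun w : ℍ => (ModularGroup.T ^ m) • w) atImInfty atImInfty := by
  rw [atImInfty]
  refine tendsto_comap_iff.mpr ?_
  have : (UpperHalfPlane.im ∘ fun w : ℍ => (ModularGroup.T ^ m) • w) = UpperHalfPlane.im := by
    funext w
    show ((ModularGroup.T ^ m) • w).im = w.im
    rw [UpperHalfPlane.modular_T_zpow_smul, UpperHalfPlane.vadd_im]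
  rw [this]
  exact tendsto_comap

/-- The period of an equivariant primitive with limits at all cusps vanishes on elements of
trace `±2`. -/
theorem espar_period_eq_zero (N : ℕ) (F : ℍ → ℂ) (hF : IsEquivariantPrimitive (Gamma0 N) F)
    (hcusp : ∀ δ : SL(2, ℤ), ∃ L : ℂ, Tendsto (fun w : ℍ => F (δ • w)) atImInfty (𝓝 L))
    (γ : Gamma0 N)
    (hγ : ((γ : SL(2, ℤ)) : Matrix (Fin 2) (Fin 2) ℤ).trace ^ 2 = 4) : hF.period γ = 0 := by
  obtain ⟨δ, m, hm⟩ := exists_conj_T_zpow (γ : SL(2, ℤ)) hγ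
  obtain ⟨L, hL⟩ := hcusp δ
  have hsmul : ∀ w : ℍ, (γ : SL(2, ℤ)) • (δ • w) = δ • ((ModularGroup.T ^ m) • w) := by
    intro w
    rw [← mul_smul, ← mul_smul]
    rcases hm with hm | hm
    · rw [hm]
    · rw [hm, ModularGroup.SL_neg_smul]
  have hconst : ∀ w : ℍ, hF.period γ = F (δ • ((ModularGroup.T ^ m) • w)) - F (δ • w) := by
    intro w
    rw [← hsmul]
    exact (hF.sub_eq_period γ (δ • w)).symm
  have hlim : Tendsto (fun w : ℍ => F (δ • ((ModularGroup.T ^ m) • w)) - F (δ • w)) atImInfty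
      (𝓝 (L - L)) :=
    (hL.comp (espar_tendsto_T_zpow_smul m)).sub hL
  have hlim2 : Tendsto (fun _ : ℍ => hF.period γ) atImInfty (𝓝 (L - L)) := by
    have : (fun _ : ℍ => hF.period γ)
        = fun w : ℍ => F (δ • ((ModularGroup.T ^ m) • w)) - F (δ • w) := funext hconst
    rw [this]
    exact hlim
  have := tendsto_nhds_unique hlim2 tendsto_const_nhds
  rw [← this, sub_self]

theorem periodMap_mem_parabolicHoms (N : ℕ) [NeZero N] (f : CuspForm (Gamma0 N) 2) :
    periodMap N f ∈ parabolicHoms ℂ (Gamma0 N) ℂ := by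
  unfold periodMap
  split_ifs with h
  · rw [mem_parabolicHoms_iff]
    intro γ hγ
    rw [IsEquivariantPrimitive.periodHom_apply]
    exact espar_period_eq_zero N _ h.choose_spec.2.2.1 h.choose_spec.2.2.2 γ hγ
  · exact Submodule.zero_mem _

end Fermat.Agent.S21
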