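import Mathlib
import Fermat.Prelude.Def_ModularCurve_PeriodHomPair

set_option autoImplicit false

open Complex UpperHalfPlane CongruenceSubgroup Filter Topology ModularCurve ModularCurve.Period
open scoped MatrixGroups Manifold

namespace Fermat.Agent.S21

/-- The open upper half plane as a subset of `ℂ` is preconnected. -/
theorem inj_isPreconnected_uhp : IsPreconnected {z : ℂ | 0 < z.im} :=
  (convex_halfSpace_im_gt 0).isPreconnected

/-- A holomorphic function on the upper half plane of constant modulus is constant. -/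
theorem inj_const_of_norm_const {R : ℂ → ℂ} (hR : DifferentiableOn ℂ R {z : ℂ | 0 < z.im})
    {c : ℝ} (hc : ∀ z : ℂ, 0 < z.im → ‖R z‖ = c) {z w : ℂ} (hz : 0 < z.im) (hw : 0 < w.im) :
    R z = R w := by
  have hmax : IsMaxOn (norm ∘ R) {z : ℂ | 0 < z.im} w := by
    intro x hx
    show ‖R x‖ ≤ ‖R w‖
    rw [hc x hx, hc w hw]
  exact Complex.eqOn_of_isPreconnected_of_isMaxOn_norm inj_isPreconnected_uhp
    isOpen_upperHalfPlaneSet hR hw hmax hz

/-- Composition of a holomorphic function on `ℍ` with the action of an element of `SL(2, ℤ)`. -/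
theorem inj_mdiff_comp_smul {H : ℍ → ℂ} (hH : MDiff H) (δ : SL(2, ℤ)) :
    MDiff (fun z : ℍ => H (δ • z)) := by
  have h1 : MDiff (fun τ : ℍ => ((δ : GL (Fin 2) ℝ)) • τ) :=
    UpperHalfPlane.mdifferentiable_smul (by simp)
  exact hH.comp h1

/-- `T ^ N` conjugated by anything is in `Γ₀(N)`. -/
theorem inj_conj_T_pow_mem (N : ℕ) (δ : SL(2, ℤ)) :
    δ * ModularGroup.T ^ (N : ℤ) * δ⁻¹ ∈ Gamma0 N := by
  have h1 : ModularGroup.T ^ (N : ℤ) ∈ CongruenceSubgroup.Gamma N := by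
    simpa using ModularGroup_T_pow_mem_Gamma (N : ℤ) (N : ℤ) dvd_rfl
  have h2 : δ * ModularGroup.T ^ (N : ℤ) * δ⁻¹ ∈ CongruenceSubgroup.Gamma N := (Gamma_normal N).conj_mem _ h1 δ
  rw [Gamma0_mem]
  exact (Gamma_mem.mp h2).2.2.1

theorem inj_tendsto_vadd (x : ℝ) : Tendsto (fun z : ℍ => x +ᵥ z) atImInfty atImInfty := by
  simp only [atImInfty, tendsto_comap_iff, Function.comp_def, UpperHalfPlane.vadd_im]
  exact tendsto_comap

/-- Key periodicity: if `Re H` is `Γ₀(N)`-invariant and `H ∘ δ` has a limit at `i∞`, then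
`exp (H ∘ δ)` is `N`-periodic. -/
theorem inj_exp_vadd (N : ℕ) {H : ℍ → ℂ} (hH : MDiff H)
    (hinv : ∀ γ ∈ Gamma0 N, ∀ z : ℍ, (H (γ • z)).re = (H z).re)
    (δ : SL(2, ℤ)) {L : ℂ} (hL : Tendsto (fun w : ℍ => H (δ • w)) atImInfty (𝓝 L)) (z : ℍ) :
    cexp (H (δ • ((N : ℝ) +ᵥ z))) = cexp (H (δ • z)) := by
  have hT : ∀ z : ℍ, δ • ((N : ℝ) +ᵥ z) = (δ * ModularGroup.T ^ (N : ℤ)) • z := by
    intro z
    rw [mul_smul, UpperHalfPlane.modular_T_zpow_smul]
    simp
  have hd1 : DifferentiableOn ℂ ((fun z : ℍ => H ((δ * ModularGroup.T ^ (N : ℤ)) • z)) ∘ ofComplex)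
      {z : ℂ | 0 < z.im} :=
    UpperHalfPlane.mdifferentiable_iff.mp (inj_mdiff_comp_smul hH _)
  have hd2 : DifferentiableOn ℂ ((fun z : ℍ => H (δ • z)) ∘ ofComplex) {z : ℂ | 0 < z.im} :=
    UpperHalfPlane.mdifferentiable_iff.mp (inj_mdiff_comp_smul hH _)
  set R : ℂ → ℂ := fun w => cexp (((fun z : ℍ => H ((δ * ModularGroup.T ^ (N : ℤ)) • z)) ∘
    ofComplex) w - ((fun z : ℍ => H (δ • z)) ∘ ofComplex) w) with hRdef
  have hRd : DifferentiableOn ℂ R {z : ℂ | 0 < z.im} := (hd1.sub hd2).cexp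
  have hRn : ∀ w : ℂ, 0 < w.im → ‖R w‖ = 1 := by
    intro w _
    simp only [hRdef, Function.comp_apply, Complex.norm_exp, Complex.sub_re]
    have h1 : (δ * ModularGroup.T ^ (N : ℤ)) • ofComplex w
        = (δ * ModularGroup.T ^ (N : ℤ) * δ⁻¹) • (δ • ofComplex w) := by
      simp [mul_smul]
    rw [h1, hinv _ (inj_conj_T_pow_mem N δ), sub_self, Real.exp_zero]
  have hconst : ∀ z : ℍ, cexp (H (δ • ((N : ℝ) +ᵥ z)) - H (δ • z)) = R Complex.I := by
    intro z
    have := inj_const_of_norm_const hRd hRn (z := (z : ℂ)) (w := Complex.I) z.im_pos (by simp)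
    rw [← this]
    simp only [hRdef, Function.comp_apply, ofComplex_apply, hT]
  have hlim : Tendsto (fun z : ℍ => cexp (H (δ • ((N : ℝ) +ᵥ z)) - H (δ • z))) atImInfty
      (𝓝 (cexp (L - L))) := by
    have h1 : Tendsto (fun z : ℍ => H (δ • ((N : ℝ) +ᵥ z))) atImInfty (𝓝 L) :=
      hL.comp (inj_tendsto_vadd (N : ℝ))
    exact (Complex.continuous_exp.tendsto _).comp (h1.sub hL)
  have hone : R Complex.I = 1 := by
    have h2 : Tendsto (fun z : ℍ => cexp (H (δ • ((N : ℝ) +ᵥ z)) - H (δ • z))) atImInfty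
        (𝓝 (R Complex.I)) := by
      simp only [hconst]
      exact tendsto_const_nhds
    have := tendsto_nhds_unique h2 hlim
    rw [this, sub_self, Complex.exp_zero]
  have h3 := hconst z
  rw [hone, Complex.exp_sub, div_eq_one_iff_eq (Complex.exp_ne_zero _)] at h3
  exact h3

theorem inj_periodic (N : ℕ) {H : ℍ → ℂ} (hH : MDiff H)
    (hinv : ∀ γ ∈ Gamma0 N, ∀ z : ℍ, (H (γ • z)).re = (H z).re)
    (δ : SL(2, ℤ)) {L : ℂ} (hL : Tendsto (fun w : ℍ => H (δ • w)) atImInfty (𝓝 L)) :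
    Function.Periodic ((fun z : ℍ => cexp (H (δ • z))) ∘ ofComplex) ((N : ℝ) : ℂ) := by
  intro w
  by_cases hw : 0 < w.im
  · have hw' : 0 < (w + ((N : ℝ) : ℂ)).im := by simpa using hw
    simp only [Function.comp_apply, ofComplex_apply_of_im_pos hw', ofComplex_apply_of_im_pos hw]
    have := inj_exp_vadd N hH hinv δ hL ⟨w, hw⟩
    convert this using 4
    ext
    simp [add_comm]
  · have hw0 : w.im ≤ 0 := not_lt.mp hw
    have hw' : (w + ((N : ℝ) : ℂ)).im ≤ 0 := by simpa using hw0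
    simp only [Function.comp_apply]
    rw [ofComplex_apply_eq_of_im_nonpos hw' hw0]

theorem inj_half_le_im_of_mem_fd {w : ℍ} (hw : w ∈ ModularGroup.fd) : 1 / 2 ≤ w.im := by
  obtain ⟨h1, h2⟩ := hw
  have him := w.im_pos
  rw [Complex.normSq_apply] at h1
  have h3 : (w : ℂ).re = w.re := rfl
  have h4 : (w : ℂ).im = w.im := rfl
  rw [h3, h4] at h1
  have h5 := abs_le.mp h2
  by_contra hcon
  rw [not_le] at hcon
  nlinarith [h5.1, h5.2]

/-- Abstract maximum principle: `exp ∘ H` is constant. -/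
theorem inj_exp_const (N : ℕ) [NeZero N] {H : ℍ → ℂ} (hH : MDiff H)
    (hinv : ∀ γ ∈ Gamma0 N, ∀ z : ℍ, (H (γ • z)).re = (H z).re)
    (hlim : ∀ δ : SL(2, ℤ), ∃ L : ℂ, Tendsto (fun w : ℍ => H (δ • w)) atImInfty (𝓝 L)) :
    ∀ z w : ℍ, cexp (H z) = cexp (H w) := by
  have hNpos : (0 : ℝ) < (N : ℝ) := by exact_mod_cast Nat.pos_of_ne_zero (NeZero.ne N)
  set E : SL(2, ℤ) → ℍ → ℂ := fun δ z => cexp (H (δ • z)) with hE
  have hper : ∀ δ, Function.Periodic (E δ ∘ ofComplex) ((N : ℝ) : ℂ) := by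
    intro δ
    obtain ⟨L, hL⟩ := hlim δ
    exact inj_periodic N hH hinv δ hL
  have hmd : ∀ δ, MDiff (E δ) := by
    intro δ
    rw [UpperHalfPlane.mdifferentiable_iff]
    exact (UpperHalfPlane.mdifferentiable_iff.mp (inj_mdiff_comp_smul hH δ)).cexp
  have hbd : ∀ δ, IsBoundedAtImInfty (E δ) := by
    intro δ
    obtain ⟨L, hL⟩ := hlim δ
    have h1 : Tendsto (E δ) atImInfty (𝓝 (cexp L)) := (Complex.continuous_exp.tendsto _).comp hL
    have h2 : E δ =O[atImInfty] (1 : ℍ → ℝ) := h1.isBigO_one ℝ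
    exact h2
  set G : SL(2, ℤ) → ℂ → ℂ := fun δ => UpperHalfPlane.cuspFunction (N : ℝ) (E δ) with hG
  have hGd : ∀ δ, DifferentiableOn ℂ (G δ) (Metric.ball 0 1) := fun δ =>
    UpperHalfPlane.differentiableOn_cuspFunction_ball hNpos (hper δ) (hmd δ) (hbd δ)
  have hGE : ∀ δ (τ : ℍ), G δ (Function.Periodic.qParam (N : ℝ) τ) = E δ τ := fun δ τ =>
    UpperHalfPlane.eq_cuspFunction τ hNpos.ne' (hper δ)
  set r0 : ℝ := Real.exp (-Real.pi / N) with hr0def
  have hr0 : r0 < 1 := by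
    rw [hr0def, Real.exp_lt_one_iff]
    exact div_neg_of_neg_of_pos (by linarith [Real.pi_pos]) hNpos
  have hr0' : 0 ≤ r0 := (Real.exp_pos _).le
  have hmaxδ : ∀ δ, ∃ q ∈ Metric.closedBall (0 : ℂ) r0,
      IsMaxOn (fun q => ‖G δ q‖) (Metric.closedBall 0 r0) q := fun δ =>
    (isCompact_closedBall 0 r0).exists_isMaxOn ⟨0, by simp [hr0']⟩
      ((hGd δ).continuousOn.norm.mono (Metric.closedBall_subset_ball hr0))
  choose qδ hqδ_mem hqδ_max using hmaxδ
  obtain ⟨x0, hx0⟩ := Finite.exists_max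
    (fun x : SL(2, ℤ) ⧸ Gamma0 N => ‖G (x.out)⁻¹ (qδ (x.out)⁻¹)‖)
  set δ0 : SL(2, ℤ) := (x0.out)⁻¹ with hδ0
  set M : ℝ := ‖G δ0 (qδ δ0)‖ with hM
  have hbound : ∀ z : ℍ, ‖cexp (H z)‖ ≤ M := by
    intro z
    obtain ⟨g, hg⟩ := ModularGroup.exists_smul_mem_fd z
    set x : SL(2, ℤ) ⧸ Gamma0 N := (g : SL(2, ℤ) ⧸ Gamma0 N) with hx
    have hmem : (x.out)⁻¹ * g ∈ Gamma0 N := QuotientGroup.eq.mp (QuotientGroup.out_eq' x)
    have h1 : (x.out)⁻¹ • (g • z) = ((x.out)⁻¹ * g) • z := by rw [mul_smul]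
    have h2 : ‖cexp (H z)‖ = ‖E (x.out)⁻¹ (g • z)‖ := by
      simp only [hE, Complex.norm_exp]
      rw [h1, hinv _ hmem]
    have h3 : Function.Periodic.qParam (N : ℝ) ((g • z : ℍ) : ℂ) ∈ Metric.closedBall (0 : ℂ) r0 := by
      rw [mem_closedBall_zero_iff, Function.Periodic.norm_qParam, hr0def, Real.exp_le_exp]
      have h4 := inj_half_le_im_of_mem_fd hg
      have h5 : ((g • z : ℍ) : ℂ).im = (g • z).im := rfl
      rw [h5, div_le_div_iff_of_pos_right hNpos]
      nlinarith [Real.pi_pos]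
    rw [h2, ← hGE]
    exact (hqδ_max _ h3).trans (hx0 x)
  have hmaxball : IsMaxOn (norm ∘ G δ0) (Metric.ball 0 1) (qδ δ0) := by
    intro q hq
    show ‖G δ0 q‖ ≤ M
    by_cases hq0 : q = 0
    · subst hq0
      exact hqδ_max δ0 (Metric.mem_closedBall_self hr0')
    · have him := Function.Periodic.im_invQParam_pos_of_norm_lt_one hNpos
        (mem_ball_zero_iff.mp hq) hq0
      have h1 : G δ0 q = E δ0 ⟨_, him⟩ := by
        rw [← hGE]
        congr 1
        exact (Function.Periodic.qParam_right_inv hNpos.ne' hq0).symm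
      rw [h1]
      exact hbound _
  have hconstG := Complex.eqOn_of_isPreconnected_of_isMaxOn_norm
    (convex_ball (0 : ℂ) 1).isPreconnected Metric.isOpen_ball (hGd δ0)
    (Metric.closedBall_subset_ball hr0 (hqδ_mem δ0)) hmaxball
  have hE0 : ∀ τ : ℍ, E δ0 τ = G δ0 (qδ δ0) := by
    intro τ
    rw [← hGE]
    exact hconstG (mem_ball_zero_iff.mpr (Function.Periodic.norm_qParam_lt_one hNpos τ.im_pos))
  intro z w
  have h1 := hE0 (δ0⁻¹ • z)
  have h2 := hE0 (δ0⁻¹ • w)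
  simp only [hE, smul_inv_smul] at h1 h2
  rw [h1, h2]

theorem inj_const_of_exp_const {H : ℍ → ℂ} (hH : MDiff H)
    (h : ∀ z w : ℍ, cexp (H z) = cexp (H w)) : ∀ z w : ℍ, H z = H w := by
  have hd : DifferentiableOn ℂ (H ∘ ofComplex) {z : ℂ | 0 < z.im} :=
    UpperHalfPlane.mdifferentiable_iff.mp hH
  have hderiv : Set.EqOn (deriv (H ∘ ofComplex)) 0 {z : ℂ | 0 < z.im} := by
    intro w hw
    have hda : DifferentiableAt ℂ (H ∘ ofComplex) w :=
      hd.differentiableAt (isOpen_upperHalfPlaneSet.mem_nhds hw)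
    have h1 : HasDerivAt (fun x => cexp ((H ∘ ofComplex) x))
        (cexp ((H ∘ ofComplex) w) * deriv (H ∘ ofComplex) w) w := hda.hasDerivAt.cexp
    have h2 : HasDerivAt (fun x => cexp ((H ∘ ofComplex) x)) 0 w := by
      have : (fun x => cexp ((H ∘ ofComplex) x)) =ᶠ[𝓝 w]
          fun _ => cexp (H UpperHalfPlane.I) := by
        filter_upwards [isOpen_upperHalfPlaneSet.mem_nhds hw] with x hx
        simp only [Function.comp_apply]
        exact h _ _
      exact (hasDerivAt_const w _).congr_of_eventuallyEq this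
    have h3 := h1.unique h2
    simpa [Complex.exp_ne_zero] using h3
  intro z w
  have := isOpen_upperHalfPlaneSet.is_const_of_deriv_eq_zero inj_isPreconnected_uhp hd hderiv
    (x := (z : ℂ)) (y := (w : ℂ)) z.im_pos w.im_pos
  simpa using this

/-- Abstract maximum principle: a holomorphic function on `ℍ` whose real part is
`Γ₀(N)`-invariant and which has limits at all cusps is constant. -/
theorem inj_const_of_re_invariant (N : ℕ) [NeZero N] {H : ℍ → ℂ} (hH : MDiff H)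
    (hinv : ∀ γ ∈ Gamma0 N, ∀ z : ℍ, (H (γ • z)).re = (H z).re)
    (hlim : ∀ δ : SL(2, ℤ), ∃ L : ℂ, Tendsto (fun w : ℍ => H (δ • w)) atImInfty (𝓝 L)) :
    ∀ z w : ℍ, H z = H w :=
  inj_const_of_exp_const hH (inj_exp_const N hH hinv hlim)

/-- The anti-holomorphic involution commutes with the `SL(2, ℤ)`-action up to `jConjSL`. -/
theorem inj_J_smul_smul (γ : SL(2, ℤ)) (z : ℍ) :
    UpperHalfPlane.J • (γ • z) = (jConjSL γ) • (UpperHalfPlane.J • z) := by
  rw [ModularGroup.sl_moeb, ModularGroup.sl_moeb, ← mul_smul, ← mul_smul]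
  congr 1
  ext i j
  fin_cases i <;> fin_cases j <;>
    simp [UpperHalfPlane.J, Matrix.mul_apply, Fin.sum_univ_two, jConjMat]

theorem inj_J_im (z : ℍ) : (UpperHalfPlane.J • z).im = z.im := by
  have := congrArg Complex.im (UpperHalfPlane.coe_J_smul z)
  simpa using this

theorem inj_tendsto_J : Tendsto (fun z : ℍ => UpperHalfPlane.J • z) atImInfty atImInfty := by
  simp only [atImInfty, tendsto_comap_iff, Function.comp_def, inj_J_im]
  exact tendsto_comap

theorem inj_J_J (z : ℍ) : UpperHalfPlane.J • (UpperHalfPlane.J • z) = z := by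
  rw [← mul_smul, ← sq, UpperHalfPlane.J_sq, one_smul]

/-- `z ↦ conj (B (J • z))` is holomorphic when `B` is. -/
theorem inj_mdiff_star {B : ℍ → ℂ} (hB : MDiff B) :
    MDiff (fun z : ℍ => (starRingEnd ℂ) (B (UpperHalfPlane.J • z))) := by
  rw [UpperHalfPlane.mdifferentiable_iff] at hB ⊢
  intro w hw
  apply DifferentiableAt.differentiableWithinAt
  have hev : ((fun z : ℍ => (starRingEnd ℂ) (B (UpperHalfPlane.J • z))) ∘ ofComplex) =ᶠ[𝓝 w]
      ((starRingEnd ℂ) ∘ (fun y => (B ∘ ofComplex) (-y)) ∘ (starRingEnd ℂ)) := by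
    filter_upwards [isOpen_upperHalfPlaneSet.mem_nhds hw] with x hx
    simp only [Function.comp_apply]
    rw [UpperHalfPlane.J_smul, ofComplex_apply_of_im_pos hx]
  refine DifferentiableAt.congr_of_eventuallyEq ?_ hev
  rw [differentiableAt_conj_conj_iff]
  have h1 : DifferentiableAt ℂ (B ∘ ofComplex) (-(starRingEnd ℂ) w) :=
    hB.differentiableAt (isOpen_upperHalfPlaneSet.mem_nhds (by simpa using hw))
  have h2 : DifferentiableAt ℂ (fun y : ℂ => -y) ((starRingEnd ℂ) w) :=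
    differentiableAt_id.neg
  exact h1.comp _ h2

/-- **ES2 core.** If the combination of periods defining `periodHomPair` vanishes identically,
then both cusp forms vanish. -/
theorem periodPair_injective_core (N : ℕ) [NeZero N] (f g : CuspForm (Gamma0 N) 2) (F G : ℍ → ℂ)
    (hF : HasEquivariantPrimitive N f F) (hG : HasEquivariantPrimitive N g G)
    (h : ∀ γ : Gamma0 N, hF.2.2.1.period γ + hF.2.2.1.period (jConjGamma0 N γ)
        + (hG.2.2.1.period γ - hG.2.2.1.period (jConjGamma0 N γ)) = 0) :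
    f = 0 ∧ g = 0 := by
  have hFd : MDiff F := by
    rw [UpperHalfPlane.mdifferentiable_iff]
    intro w hw
    exact (hF.1 ⟨w, hw⟩).differentiableAt.differentiableWithinAt
  have hGd : MDiff G := by
    rw [UpperHalfPlane.mdifferentiable_iff]
    intro w hw
    exact (hG.1 ⟨w, hw⟩).differentiableAt.differentiableWithinAt
  set A : ℍ → ℂ := fun z => F z + G z with hA
  set B : ℍ → ℂ := fun z => F z - G z with hB
  set Bs : ℍ → ℂ := fun z => (starRingEnd ℂ) (B (UpperHalfPlane.J • z)) with hBs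
  have hAd : MDiff A := hFd.add hGd
  have hBd : MDiff B := hFd.sub hGd
  have hBsd : MDiff Bs := inj_mdiff_star hBd
  -- invariance of `u = A + B ∘ J`
  have hu : ∀ γ ∈ Gamma0 N, ∀ z : ℍ,
      A (γ • z) + B (UpperHalfPlane.J • (γ • z)) = A z + B (UpperHalfPlane.J • z) := by
    intro γ hγ z
    have e1 : F (γ • z) - F z = _ := hF.2.2.1.sub_eq_period ⟨γ, hγ⟩ z
    have e2 : G (γ • z) - G z = _ := hG.2.2.1.sub_eq_period ⟨γ, hγ⟩ z
    have e3 : F (jConjSL γ • (UpperHalfPlane.J • z)) - F (UpperHalfPlane.J • z) = _ :=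
      hF.2.2.1.sub_eq_period (jConjGamma0 N ⟨γ, hγ⟩) (UpperHalfPlane.J • z)
    have e4 : G (jConjSL γ • (UpperHalfPlane.J • z)) - G (UpperHalfPlane.J • z) = _ :=
      hG.2.2.1.sub_eq_period (jConjGamma0 N ⟨γ, hγ⟩) (UpperHalfPlane.J • z)
    have e5 := h ⟨γ, hγ⟩
    rw [inj_J_smul_smul]
    simp only [hA, hB]
    linear_combination e1 + e2 + e3 - e4 + e5
  set H1 : ℍ → ℂ := fun z => A z + Bs z with hH1
  set H2 : ℍ → ℂ := fun z => -Complex.I * (A z - Bs z) with hH2
  have hH1d : MDiff H1 := hAd.add hBsd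
  have hH2d : MDiff H2 := by
    have h1 := UpperHalfPlane.mdifferentiable_iff.mp (hAd.sub hBsd)
    rw [UpperHalfPlane.mdifferentiable_iff]
    exact h1.const_mul (-Complex.I)
  have hre1 : ∀ γ ∈ Gamma0 N, ∀ z : ℍ, (H1 (γ • z)).re = (H1 z).re := by
    intro γ hγ z
    have := congrArg Complex.re (hu γ hγ z)
    simp only [hH1, hBs, Complex.add_re, Complex.conj_re] at this ⊢
    exact this
  have hre2 : ∀ γ ∈ Gamma0 N, ∀ z : ℍ, (H2 (γ • z)).re = (H2 z).re := by
    intro γ hγ z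
    have := congrArg Complex.im (hu γ hγ z)
    simp only [hH2, hBs, Complex.add_im, Complex.mul_re, Complex.neg_re, Complex.neg_im,
      Complex.I_re, Complex.I_im, Complex.sub_im, Complex.sub_re, Complex.conj_im,
      Complex.conj_re] at this ⊢
    linarith
  have hlimA : ∀ δ : SL(2, ℤ), ∃ L, Tendsto (fun w : ℍ => A (δ • w)) atImInfty (𝓝 L) := by
    intro δ
    obtain ⟨L1, h1⟩ := hF.2.2.2 δ
    obtain ⟨L2, h2⟩ := hG.2.2.2 δ
    exact ⟨L1 + L2, h1.add h2⟩
  have hlimBs : ∀ δ : SL(2, ℤ), ∃ L, Tendsto (fun w : ℍ => Bs (δ • w)) atImInfty (𝓝 L) := by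
    intro δ
    obtain ⟨L1, h1⟩ := hF.2.2.2 (jConjSL δ)
    obtain ⟨L2, h2⟩ := hG.2.2.2 (jConjSL δ)
    refine ⟨(starRingEnd ℂ) (L1 - L2), ?_⟩
    have h3 : Tendsto (fun w : ℍ => F (jConjSL δ • (UpperHalfPlane.J • w))
        - G (jConjSL δ • (UpperHalfPlane.J • w))) atImInfty (𝓝 (L1 - L2)) :=
      (h1.comp inj_tendsto_J).sub (h2.comp inj_tendsto_J)
    have h4 := (Complex.continuous_conj.tendsto (L1 - L2)).comp h3
    refine h4.congr ?_
    intro w
    simp only [hBs, hB, Function.comp_apply, inj_J_smul_smul]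
  have hlim1 : ∀ δ : SL(2, ℤ), ∃ L, Tendsto (fun w : ℍ => H1 (δ • w)) atImInfty (𝓝 L) := by
    intro δ
    obtain ⟨L1, h1⟩ := hlimA δ
    obtain ⟨L2, h2⟩ := hlimBs δ
    exact ⟨L1 + L2, h1.add h2⟩
  have hlim2 : ∀ δ : SL(2, ℤ), ∃ L, Tendsto (fun w : ℍ => H2 (δ • w)) atImInfty (𝓝 L) := by
    intro δ
    obtain ⟨L1, h1⟩ := hlimA δ
    obtain ⟨L2, h2⟩ := hlimBs δ
    exact ⟨-Complex.I * (L1 - L2), (h1.sub h2).const_mul _⟩
  have hc1 := inj_const_of_re_invariant N hH1d hre1 hlim1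
  have hc2 := inj_const_of_re_invariant N hH2d hre2 hlim2
  have hc2' : ∀ z w : ℍ, A z - Bs z = A w - Bs w := fun z w =>
    mul_left_cancel₀ (neg_ne_zero.mpr Complex.I_ne_zero) (hc2 z w)
  have hAc : ∀ z w : ℍ, A z = A w := by
    intro z w
    have e1 : A z + Bs z = A w + Bs w := hc1 z w
    have e2 := hc2' z w
    linear_combination (1 / 2 : ℂ) * e1 + (1 / 2 : ℂ) * e2
  have hBsc : ∀ z w : ℍ, Bs z = Bs w := by
    intro z w
    have e1 : A z + Bs z = A w + Bs w := hc1 z w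
    have e2 := hc2' z w
    linear_combination (1 / 2 : ℂ) * e1 - (1 / 2 : ℂ) * e2
  have hBc : ∀ z w : ℍ, B z = B w := by
    intro z w
    have := hBsc (UpperHalfPlane.J • z) (UpperHalfPlane.J • w)
    simp only [hBs, inj_J_J] at this
    exact (starRingEnd ℂ).injective this
  have hfg : ∀ τ : ℍ, f τ + g τ = 0 := by
    intro τ
    have h1 : HasDerivAt (A ∘ ofComplex) (f τ + g τ) τ := (hF.1 τ).add (hG.1 τ)
    have h2 : HasDerivAt (A ∘ ofComplex) 0 τ := by
      have : (A ∘ ofComplex) = fun _ => A UpperHalfPlane.I := funext fun x => hAc _ _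
      rw [this]
      exact hasDerivAt_const _ _
    exact h1.unique h2
  have hfg' : ∀ τ : ℍ, f τ - g τ = 0 := by
    intro τ
    have h1 : HasDerivAt (B ∘ ofComplex) (f τ - g τ) τ := (hF.1 τ).sub (hG.1 τ)
    have h2 : HasDerivAt (B ∘ ofComplex) 0 τ := by
      have : (B ∘ ofComplex) = fun _ => B UpperHalfPlane.I := funext fun x => hBc _ _
      rw [this]
      exact hasDerivAt_const _ _
    exact h1.unique h2
  constructor
  · ext τ
    have e1 := hfg τ
    have e2 := hfg' τ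
    show f τ = 0
    linear_combination (1 / 2 : ℂ) * e1 + (1 / 2 : ℂ) * e2
  · ext τ
    have e1 := hfg τ
    have e2 := hfg' τ
    show g τ = 0
    linear_combination (1 / 2 : ℂ) * e1 - (1 / 2 : ℂ) * e2

/-- **ES2.** Injectivity of `periodHomPair`, given the existence and linearity of the
period map (ES1). -/
theorem periodHomPair_injective (N : ℕ) [NeZero N] (hlin : ExistsPeriodMapLinear N)
    (hex : ∀ f : CuspForm (Gamma0 N) 2, ∃ F : ℍ → ℂ, HasEquivariantPrimitive N f F) :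
    Function.Injective (periodHomPair N) := by
  obtain ⟨pml, hpml, hdef⟩ := periodHomPair_def N hlin
  rw [← LinearMap.ker_eq_bot, LinearMap.ker_eq_bot']
  rintro ⟨f, g⟩ hfg
  obtain ⟨F, hF⟩ := hex f
  obtain ⟨G, hG⟩ := hex g
  obtain ⟨F0, hF0, hpF⟩ := periodMap_def N f hF
  obtain ⟨G0, hG0, hpG⟩ := periodMap_def N g hG
  have hcore := periodPair_injective_core N f g F0 G0 hF0 hG0 (by
    intro γ
    have h1 := DFunLike.congr_fun hfg (Additive.ofMul γ)
    rw [hdef] at h1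
    simp only [LinearMap.coprod_apply, LinearMap.comp_apply, LinearMap.add_apply,
      LinearMap.sub_apply, LinearMap.id_apply, hpml, hpF, hpG, AddMonoidHom.add_apply,
      AddMonoidHom.sub_apply, charInvolution_apply, IsEquivariantPrimitive.periodHom_apply,
      toMul_ofMul, AddMonoidHom.zero_apply] at h1
    exact h1)
  exact Prod.ext hcore.1 hcore.2

end Fermat.Agent.S21
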