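import Mathlib
import Fermat.Prelude.Def_ModularCurve_PeriodMap
import Fermat.Agent.S24.Index
import Fermat.Agent.S24.Elliptic
import Fermat.Agent.S24.Cusps

/-!
# S21, piece ES3: the upper bound `dim Hom_par(Γ₀(N), ℂ) ≤ 2 g`

General statement (`pb_general`): `G` a group generated by `S`, `T`, with `S` and `S * T` of finite
order, `Γ` a subgroup of finite index, `P` a space of homomorphisms `Γ → ℂ` vanishing on all
elements of `Γ` conjugate to powers of `T`.  Then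
`dim P + r_S + r_{ST} + r_T ≤ [G : Γ] + 2`, with `r_g` the number of `⟨g⟩`-orbits on `G ⧸ Γ`.
-/

set_option autoImplicit false

namespace Fermat.Agent.S21

open Fermat.Agent.S24

section general

variable {G : Type*} [Group G] (Γ : Subgroup G)

open Classical in
/-- Extension by zero of a homomorphism on `Γ`. -/
noncomputable def pbExt (φ : Additive Γ →+ ℂ) (g : G) : ℂ :=
  if h : g ∈ Γ then φ (Additive.ofMul ⟨g, h⟩) else 0

lemma pbExt_of_mem (φ : Additive Γ →+ ℂ) {g : G} (h : g ∈ Γ) :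
    pbExt Γ φ g = φ (Additive.ofMul ⟨g, h⟩) := dif_pos h

lemma pbExt_mul (φ : Additive Γ →+ ℂ) {a b : G} (ha : a ∈ Γ) (hb : b ∈ Γ) :
    pbExt Γ φ (a * b) = pbExt Γ φ a + pbExt Γ φ b := by
  rw [pbExt_of_mem Γ φ ha, pbExt_of_mem Γ φ hb, pbExt_of_mem Γ φ (Γ.mul_mem ha hb)]
  exact map_add φ (Additive.ofMul ⟨a, ha⟩) (Additive.ofMul ⟨b, hb⟩)

lemma pbExt_one (φ : Additive Γ →+ ℂ) : pbExt Γ φ 1 = 0 := by
  rw [pbExt_of_mem Γ φ Γ.one_mem]
  exact map_zero φ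

lemma pbExt_add (φ ψ : Additive Γ →+ ℂ) (g : G) :
    pbExt Γ (φ + ψ) g = pbExt Γ φ g + pbExt Γ ψ g := by
  unfold pbExt; split_ifs <;> simp

lemma pbExt_smul (c : ℂ) (φ : Additive Γ →+ ℂ) (g : G) :
    pbExt Γ (c • φ) g = c * pbExt Γ φ g := by
  unfold pbExt; split_ifs <;> simp

lemma pb_mem (g : G) (x : G ⧸ Γ) :
    (Quotient.out x)⁻¹ * g * Quotient.out (g⁻¹ • x) ∈ Γ := by
  rw [mul_assoc, ← QuotientGroup.eq]
  have h : (QuotientGroup.mk (g * Quotient.out (g⁻¹ • x)) : G ⧸ Γ)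
      = g • (QuotientGroup.mk (Quotient.out (g⁻¹ • x)) : G ⧸ Γ) := rfl
  rw [h, QuotientGroup.out_eq', QuotientGroup.out_eq', smul_inv_smul]

/-- The Shapiro cocycle attached to `φ`, plus the coboundary of `v`. -/
noncomputable def pbCoc (φ : Additive Γ →+ ℂ) (v : G ⧸ Γ → ℂ) (g : G) (x : G ⧸ Γ) : ℂ :=
  pbExt Γ φ ((Quotient.out x)⁻¹ * g * Quotient.out (g⁻¹ • x)) + v x - v (g⁻¹ • x)

lemma pbCoc_mul (φ : Additive Γ →+ ℂ) (v : G ⧸ Γ → ℂ) (g h : G) (x : G ⧸ Γ) :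
    pbCoc Γ φ v (g * h) x = pbCoc Γ φ v g x + pbCoc Γ φ v h (g⁻¹ • x) := by
  unfold pbCoc
  have e : (g * h)⁻¹ • x = h⁻¹ • g⁻¹ • x := by rw [mul_inv_rev, mul_smul]
  rw [e]
  have e2 : (Quotient.out x)⁻¹ * (g * h) * Quotient.out (h⁻¹ • g⁻¹ • x)
      = ((Quotient.out x)⁻¹ * g * Quotient.out (g⁻¹ • x)) *
        ((Quotient.out (g⁻¹ • x))⁻¹ * h * Quotient.out (h⁻¹ • g⁻¹ • x)) := by group
  rw [e2, pbExt_mul Γ φ (pb_mem Γ g x) (pb_mem Γ h (g⁻¹ • x))]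
  ring

lemma pbCoc_one (φ : Additive Γ →+ ℂ) (v : G ⧸ Γ → ℂ) (x : G ⧸ Γ) :
    pbCoc Γ φ v 1 x = 0 := by
  have h := pbCoc_mul Γ φ v 1 1 x
  simp only [mul_one, inv_one, one_smul] at h
  linear_combination -h

lemma pbCoc_pow (φ : Additive Γ →+ ℂ) (v : G ⧸ Γ → ℂ) (g : G) (n : ℕ) (x : G ⧸ Γ) :
    pbCoc Γ φ v (g ^ n) x = ∑ k ∈ Finset.range n, pbCoc Γ φ v g ((g ^ k)⁻¹ • x) := by
  induction n with
  | zero => simp [pbCoc_one]
  | succ n ih => rw [pow_succ, pbCoc_mul, ih, Finset.sum_range_succ]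

/-- The vanishing locus of a cocycle is a subgroup. -/
lemma pbCoc_eq_zero_of_gen (φ : Additive Γ →+ ℂ) (v : G ⧸ Γ → ℂ) (S T : G)
    (hgen : Subgroup.closure {S, T} = ⊤)
    (hS : ∀ x, pbCoc Γ φ v S x = 0) (hT : ∀ x, pbCoc Γ φ v T x = 0) (g : G) (x : G ⧸ Γ) :
    pbCoc Γ φ v g x = 0 := by
  have hg : g ∈ Subgroup.closure ({S, T} : Set G) := by rw [hgen]; exact Subgroup.mem_top g
  induction hg using Subgroup.closure_induction generalizing x with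
  | mem y hy =>
    rcases hy with rfl | rfl
    · exact hS x
    · exact hT x
  | one => exact pbCoc_one Γ φ v x
  | mul a b _ _ iha ihb => rw [pbCoc_mul, iha, ihb, add_zero]
  | inv a _ iha =>
    have h := pbCoc_mul Γ φ v a a⁻¹ (a • x)
    rw [mul_inv_cancel, pbCoc_one, iha, zero_add, inv_smul_smul] at h
    exact h.symm

end general

section fin

variable {G : Type*} [Group G] (Γ : Subgroup G) [Fintype (G ⧸ Γ)]

lemma pb_sum_smul (g : G) (f : G ⧸ Γ → ℂ) : ∑ x, f (g • x) = ∑ x, f x :=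
  Equiv.sum_comp (MulAction.toPerm g) f

lemma pbCoc_orth (φ : Additive Γ →+ ℂ) (v : G ⧸ Γ → ℂ) (g : G) (w : G ⧸ Γ → ℂ)
    (hw : ∀ x, w (g • x) = w x) (n : ℕ) (hn : 0 < n) (hfix : ∀ x : G ⧸ Γ, g ^ n • x = x)
    (hφ : ∀ x : G ⧸ Γ, pbExt Γ φ ((Quotient.out x)⁻¹ * g ^ n * Quotient.out x) = 0) :
    ∑ x, w x * pbCoc Γ φ v g x = 0 := by
  have hwk : ∀ (k : ℕ) (x : G ⧸ Γ), w ((g ^ k)⁻¹ • x) = w x := by
    intro k
    induction k with
    | zero => intro x; simp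
    | succ k ih =>
      intro x
      rw [pow_succ, mul_inv_rev, mul_smul]
      have h := hw (g⁻¹ • (g ^ k)⁻¹ • x)
      rw [smul_inv_smul] at h
      rw [← h, ih]
  have hk : ∀ k : ℕ, ∑ x, w x * pbCoc Γ φ v g ((g ^ k)⁻¹ • x)
      = ∑ x, w x * pbCoc Γ φ v g x := by
    intro k
    rw [← pb_sum_smul Γ ((g ^ k)⁻¹) (fun x => w x * pbCoc Γ φ v g x)]
    exact Finset.sum_congr rfl (fun x _ => by rw [hwk k x])
  have hfix' : ∀ x : G ⧸ Γ, (g ^ n)⁻¹ • x = x := fun x => by rw [inv_smul_eq_iff, hfix]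
  have hn0 : ∀ x, pbCoc Γ φ v (g ^ n) x = 0 := by
    intro x
    unfold pbCoc
    rw [hfix' x, hφ x]; ring
  have hsum : (n : ℂ) * ∑ x, w x * pbCoc Γ φ v g x = 0 := by
    calc (n : ℂ) * ∑ x, w x * pbCoc Γ φ v g x
        = ∑ k ∈ Finset.range n, ∑ x, w x * pbCoc Γ φ v g ((g ^ k)⁻¹ • x) := by
          rw [Finset.sum_congr rfl (fun k _ => hk k)]; simp
      _ = ∑ x, w x * pbCoc Γ φ v (g ^ n) x := by
          rw [Finset.sum_comm]
          refine Finset.sum_congr rfl (fun x _ => ?_)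
          rw [pbCoc_pow, Finset.mul_sum]
      _ = 0 := by simp [hn0]
  rcases mul_eq_zero.mp hsum with h | h
  · exact absurd (by exact_mod_cast h) hn.ne'
  · exact h

/-- Invariant functions on the coset space. -/
def pbInv (g : G) : Submodule ℂ (G ⧸ Γ → ℂ) where
  carrier := {w | ∀ x, w (g • x) = w x}
  add_mem' := fun {a b} ha hb x => by
    show a (g • x) + b (g • x) = a x + b x
    rw [ha x, hb x]
  zero_mem' := fun _ => rfl
  smul_mem' := fun c w hw x => by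
    show c • w (g • x) = c • w x
    rw [hw x]

omit [Fintype (G ⧸ Γ)] in
lemma pb_mem_pbInv (g : G) (w : G ⧸ Γ → ℂ) : w ∈ pbInv Γ g ↔ ∀ x, w (g • x) = w x := Iff.rfl

lemma pb_cycOrbits_le (g : G) : cycOrbits (G ⧸ Γ) g ≤ Module.finrank ℂ (pbInv Γ g) := by
  classical
  haveI : Fintype (MulAction.orbitRel.Quotient (Subgroup.zpowers g) (G ⧸ Γ)) :=
    Fintype.ofFinite _
  let f : (MulAction.orbitRel.Quotient (Subgroup.zpowers g) (G ⧸ Γ) → ℂ) →ₗ[ℂ] pbInv Γ g :=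
    { toFun := fun u => ⟨fun x => u (Quotient.mk'' x), fun x => by
        show u (Quotient.mk'' (g • x)) = u (Quotient.mk'' x)
        congr 1
        exact Quotient.sound' ⟨⟨g, Subgroup.mem_zpowers g⟩, rfl⟩⟩
      map_add' := fun _ _ => rfl
      map_smul' := fun _ _ => rfl }
  have hf : Function.Injective f := by
    intro u u' h
    funext o
    induction o using Quotient.inductionOn' with
    | h x => exact congrFun (congrArg Subtype.val h) x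
  have h := LinearMap.finrank_le_finrank_of_injective hf
  rw [Module.finrank_fintype_fun_eq_card, ← Nat.card_eq_fintype_card] at h
  exact h

omit [Fintype (G ⧸ Γ)] in
lemma pb_const_of_inv (S T : G) (hgen : Subgroup.closure {S, T} = ⊤) (w : G ⧸ Γ → ℂ)
    (hS : ∀ x, w (S • x) = w x) (hT : ∀ x, w (T • x) = w x) (x : G ⧸ Γ) :
    w x = w (QuotientGroup.mk 1) := by
  have key : ∀ g : G, ∀ x : G ⧸ Γ, w (g • x) = w x := by
    intro g
    have hg : g ∈ Subgroup.closure ({S, T} : Set G) := by rw [hgen]; exact Subgroup.mem_top g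
    induction hg using Subgroup.closure_induction with
    | mem y hy =>
      rcases hy with rfl | rfl
      · exact hS
      · exact hT
    | one => intro x; rw [one_smul]
    | mul a b _ _ iha ihb => intro x; rw [mul_smul, iha, ihb]
    | inv a _ iha => intro x; rw [← iha (a⁻¹ • x), smul_inv_smul]
  induction x using QuotientGroup.induction_on with
  | H g =>
    have h := key g (QuotientGroup.mk 1)
    rw [← h]
    congr 1
    show (QuotientGroup.mk g : G ⧸ Γ) = QuotientGroup.mk (g * 1)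
    rw [mul_one]

/-- The pairing functionals cutting out the parabolic cocycle space. -/
noncomputable def pbTheta (S T : G) :
    (pbInv Γ S × pbInv Γ (S * T) × pbInv Γ T) →ₗ[ℂ]
      Module.Dual ℂ ((G ⧸ Γ → ℂ) × (G ⧸ Γ → ℂ)) :=
  LinearMap.mk₂ ℂ (fun w u => ∑ x, ((w.1 : G ⧸ Γ → ℂ) x * u.1 x
      + (w.2.1 : G ⧸ Γ → ℂ) x * (u.1 x + u.2 (S⁻¹ • x)) + (w.2.2 : G ⧸ Γ → ℂ) x * u.2 x))
    (by
      intro w w' u
      simp only [Prod.fst_add, Prod.snd_add, Submodule.coe_add, Pi.add_apply,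
        ← Finset.sum_add_distrib]
      refine Finset.sum_congr rfl fun x _ => ?_
      ring)
    (by
      intro c w u
      simp only [Prod.smul_fst, Prod.smul_snd, Submodule.coe_smul, Pi.smul_apply, smul_eq_mul,
        Finset.mul_sum]
      refine Finset.sum_congr rfl fun x _ => ?_
      ring)
    (by
      intro w u u'
      simp only [Prod.fst_add, Prod.snd_add, Pi.add_apply, ← Finset.sum_add_distrib]
      refine Finset.sum_congr rfl fun x _ => ?_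
      ring)
    (by
      intro c w u
      simp only [Prod.smul_fst, Prod.smul_snd, Pi.smul_apply, smul_eq_mul, Finset.mul_sum]
      refine Finset.sum_congr rfl fun x _ => ?_
      ring)

lemma pbTheta_apply (S T : G) (w : pbInv Γ S × pbInv Γ (S * T) × pbInv Γ T)
    (u : (G ⧸ Γ → ℂ) × (G ⧸ Γ → ℂ)) :
    pbTheta Γ S T w u = ∑ x, ((w.1 : G ⧸ Γ → ℂ) x * u.1 x
      + (w.2.1 : G ⧸ Γ → ℂ) x * (u.1 x + u.2 (S⁻¹ • x)) + (w.2.2 : G ⧸ Γ → ℂ) x * u.2 x) := rfl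

lemma pbTheta_eq_zero (S T : G) (hgen : Subgroup.closure {S, T} = ⊤)
    (w : pbInv Γ S × pbInv Γ (S * T) × pbInv Γ T) (h : pbTheta Γ S T w = 0)
    (h0 : (w.2.1 : G ⧸ Γ → ℂ) (QuotientGroup.mk 1) = 0) : w = 0 := by
  classical
  obtain ⟨⟨w1, hw1⟩, ⟨w2, hw2⟩, ⟨w3, hw3⟩⟩ := w
  simp only at h0
  rw [pb_mem_pbInv] at hw1 hw2 hw3
  have e1 : ∀ y, w1 y + w2 y = 0 := by
    intro y
    have h' := LinearMap.congr_fun h (Pi.single y 1, 0)
    rw [pbTheta_apply] at h'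
    simpa [Pi.single_apply, Finset.sum_add_distrib] using h'
  have e2 : ∀ y, w2 (S • y) + w3 y = 0 := by
    intro y
    have h' := LinearMap.congr_fun h (0, Pi.single y 1)
    rw [pbTheta_apply] at h'
    simpa [Pi.single_apply, Finset.sum_add_distrib, inv_smul_eq_iff] using h'
  have hS2 : ∀ x, w2 (S • x) = w2 x := by
    intro x
    have a := e1 (S • x)
    have b := e1 x
    rw [hw1 x] at a
    linear_combination a - b
  have hT2 : ∀ x, w2 (T • x) = w2 x := by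
    intro x
    rw [← hS2 (T • x), ← mul_smul, hw2 x]
  have hc : ∀ x, w2 x = 0 := fun x => by
    rw [pb_const_of_inv Γ S T hgen w2 hS2 hT2 x, h0]
  have hw1z : ∀ x, w1 x = 0 := fun x => by
    have a := e1 x
    rw [hc x, add_zero] at a
    exact a
  have hw3z : ∀ x, w3 x = 0 := fun x => by
    have a := e2 x
    rw [hc (S • x), zero_add] at a
    exact a
  refine Prod.ext (Subtype.ext (funext hw1z)) (Prod.ext (Subtype.ext (funext hc))
    (Subtype.ext (funext hw3z)))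

/-- The map `(φ, v) ↦ (c(S), c(T))`. -/
noncomputable def pbPsi (S T : G) :
    ((Additive Γ →+ ℂ) × (G ⧸ Γ → ℂ)) →ₗ[ℂ] (G ⧸ Γ → ℂ) × (G ⧸ Γ → ℂ) where
  toFun p := (pbCoc Γ p.1 p.2 S, pbCoc Γ p.1 p.2 T)
  map_add' p q := by
    refine Prod.ext (funext fun x => ?_) (funext fun x => ?_)
    · show pbCoc Γ (p.1 + q.1) (p.2 + q.2) S x = pbCoc Γ p.1 p.2 S x + pbCoc Γ q.1 q.2 S x
      simp only [pbCoc, pbExt_add, Pi.add_apply]; ring
    · show pbCoc Γ (p.1 + q.1) (p.2 + q.2) T x = pbCoc Γ p.1 p.2 T x + pbCoc Γ q.1 q.2 T x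
      simp only [pbCoc, pbExt_add, Pi.add_apply]; ring
  map_smul' c p := by
    refine Prod.ext (funext fun x => ?_) (funext fun x => ?_)
    · show pbCoc Γ (c • p.1) (c • p.2) S x = c * pbCoc Γ p.1 p.2 S x
      simp only [pbCoc, pbExt_smul, Pi.smul_apply, smul_eq_mul]; ring
    · show pbCoc Γ (c • p.1) (c • p.2) T x = c * pbCoc Γ p.1 p.2 T x
      simp only [pbCoc, pbExt_smul, Pi.smul_apply, smul_eq_mul]; ring

omit [Fintype (G ⧸ Γ)] in
lemma pbPsi_apply (S T : G) (φ : Additive Γ →+ ℂ) (v : G ⧸ Γ → ℂ) :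
    pbPsi Γ S T (φ, v) = (pbCoc Γ φ v S, pbCoc Γ φ v T) := rfl

omit [Fintype (G ⧸ Γ)] in
lemma pb_out_one_mem : Quotient.out (QuotientGroup.mk 1 : G ⧸ Γ) ∈ Γ := by
  have h : (QuotientGroup.mk (Quotient.out (QuotientGroup.mk 1 : G ⧸ Γ)) : G ⧸ Γ)
      = QuotientGroup.mk 1 := QuotientGroup.out_eq' _
  rw [QuotientGroup.eq, mul_one] at h
  simpa using Γ.inv_mem h

omit [Fintype (G ⧸ Γ)] in
lemma pbPsi_eq_zero (S T : G) (hgen : Subgroup.closure {S, T} = ⊤)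
    (φ : Additive Γ →+ ℂ) (v : G ⧸ Γ → ℂ) (h : pbPsi Γ S T (φ, v) = 0)
    (h0 : v (QuotientGroup.mk 1) = 0) : φ = 0 ∧ v = 0 := by
  rw [pbPsi_apply] at h
  have hS : ∀ x, pbCoc Γ φ v S x = 0 := fun x => congrFun (congrArg Prod.fst h) x
  have hT : ∀ x, pbCoc Γ φ v T x = 0 := fun x => congrFun (congrArg Prod.snd h) x
  have hall := pbCoc_eq_zero_of_gen Γ φ v S T hgen hS hT
  have hφ : φ = 0 := by
    refine AddMonoidHom.ext fun γ => ?_
    obtain ⟨γ', rfl⟩ : ∃ γ' : Γ, Additive.ofMul γ' = γ := ⟨Additive.toMul γ, rfl⟩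
    show φ (Additive.ofMul γ') = 0
    have h1 := hall (γ' : G) (QuotientGroup.mk 1)
    unfold pbCoc at h1
    have hfix : ((γ' : G)⁻¹) • (QuotientGroup.mk 1 : G ⧸ Γ) = QuotientGroup.mk 1 := by
      show (QuotientGroup.mk ((γ' : G)⁻¹ * 1) : G ⧸ Γ) = QuotientGroup.mk 1
      rw [QuotientGroup.eq]
      simp
    rw [hfix, add_sub_cancel_right] at h1
    have hs := pb_out_one_mem Γ
    rw [pbExt_mul Γ φ (Γ.mul_mem (Γ.inv_mem hs) γ'.2) hs,
      pbExt_mul Γ φ (Γ.inv_mem hs) γ'.2] at h1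
    have h2 := pbExt_mul Γ φ (Γ.inv_mem hs) hs
    rw [inv_mul_cancel, pbExt_one] at h2
    have h3 : pbExt Γ φ (γ' : G) = 0 := by linear_combination h1 + h2
    rw [pbExt_of_mem Γ φ γ'.2] at h3
    exact h3
  refine ⟨hφ, ?_⟩
  subst hφ
  have hv : ∀ g : G, ∀ x : G ⧸ Γ, v (g • x) = v x := by
    intro g x
    have h1 := hall g (g • x)
    unfold pbCoc at h1
    rw [inv_smul_smul] at h1
    have h2 : pbExt Γ (0 : Additive Γ →+ ℂ) ((Quotient.out (g • x))⁻¹ * g * Quotient.out x) = 0 := by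
      unfold pbExt; split_ifs <;> simp
    rw [h2] at h1
    linear_combination h1
  funext x
  show v x = 0
  rw [pb_const_of_inv Γ S T hgen v (hv S) (hv T) x, h0]

lemma pb_exists_fix (g : G) : ∃ n : ℕ, 0 < n ∧ ∀ x : G ⧸ Γ, g ^ n • x = x := by
  classical
  refine ⟨orderOf (MulAction.toPermHom G (G ⧸ Γ) g), orderOf_pos _, fun x => ?_⟩
  have h := pow_orderOf_eq_one (MulAction.toPermHom G (G ⧸ Γ) g)
  rw [← map_pow] at h
  have h2 := congrArg (fun σ : Equiv.Perm (G ⧸ Γ) => σ x) h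
  simpa using h2

lemma pbPsi_mem (S T : G) (hSfin : IsOfFinOrder S) (hUfin : IsOfFinOrder (S * T))
    (φ : Additive Γ →+ ℂ)
    (hφ : ∀ (n : ℕ) (s : G) (h : s⁻¹ * T ^ n * s ∈ Γ), φ (Additive.ofMul ⟨_, h⟩) = 0)
    (v : G ⧸ Γ → ℂ) :
    pbPsi Γ S T (φ, v) ∈ (LinearMap.range (pbTheta Γ S T)).dualCoannihilator := by
  rw [Submodule.mem_dualCoannihilator]
  rintro _ ⟨w, rfl⟩
  rw [pbTheta_apply, pbPsi_apply]
  have hfin : ∀ g : G, IsOfFinOrder g → ∀ w : G ⧸ Γ → ℂ, (∀ x, w (g • x) = w x) →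
      ∑ x, w x * pbCoc Γ φ v g x = 0 := by
    intro g hg w hw
    refine pbCoc_orth Γ φ v g w hw (orderOf g) hg.orderOf_pos (fun x => ?_) (fun x => ?_)
    · rw [pow_orderOf_eq_one, one_smul]
    · rw [pow_orderOf_eq_one, mul_one, inv_mul_cancel, pbExt_one]
  have h1 := hfin S hSfin w.1 w.1.2
  have h2 := hfin (S * T) hUfin w.2.1 w.2.1.2
  have h3 : ∑ x, (w.2.2 : G ⧸ Γ → ℂ) x * pbCoc Γ φ v T x = 0 := by
    obtain ⟨n, hn, hfix⟩ := pb_exists_fix Γ T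
    refine pbCoc_orth Γ φ v T w.2.2 w.2.2.2 n hn hfix (fun x => ?_)
    by_cases hmem : (Quotient.out x)⁻¹ * T ^ n * Quotient.out x ∈ Γ
    · rw [pbExt_of_mem Γ φ hmem]
      exact hφ n _ hmem
    · unfold pbExt
      rw [dif_neg hmem]
  have e : ∀ x, pbCoc Γ φ v S x + pbCoc Γ φ v T (S⁻¹ • x) = pbCoc Γ φ v (S * T) x :=
    fun x => (pbCoc_mul Γ φ v S T x).symm
  simp only [e, Finset.sum_add_distrib, h1, h2, h3, add_zero]

/-- **General bound** for spaces of parabolic homomorphisms. -/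
theorem pb_general (S T : G) (hgen : Subgroup.closure {S, T} = ⊤) (hSfin : IsOfFinOrder S)
    (hUfin : IsOfFinOrder (S * T)) (P : Submodule ℂ (Additive Γ →+ ℂ))
    (hP : ∀ φ ∈ P, ∀ (n : ℕ) (s : G) (h : s⁻¹ * T ^ n * s ∈ Γ),
      φ (Additive.ofMul ⟨_, h⟩) = 0) :
    Module.Finite ℂ P ∧
      Module.finrank ℂ P + cycOrbits (G ⧸ Γ) S + cycOrbits (G ⧸ Γ) (S * T)
        + cycOrbits (G ⧸ Γ) T ≤ Nat.card (G ⧸ Γ) + 2 := by
  classical
  let Ψ₀ : (P × (G ⧸ Γ → ℂ)) →ₗ[ℂ] (G ⧸ Γ → ℂ) × (G ⧸ Γ → ℂ) :=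
    (pbPsi Γ S T).comp (LinearMap.prodMap P.subtype LinearMap.id)
  have hΨ₀ : ∀ p, Ψ₀ p ∈ (LinearMap.range (pbTheta Γ S T)).dualCoannihilator :=
    fun p => pbPsi_mem Γ S T hSfin hUfin p.1 (hP p.1 p.1.2) p.2
  let Ψ : (P × (G ⧸ Γ → ℂ)) →ₗ[ℂ]
      (LinearMap.range (pbTheta Γ S T)).dualCoannihilator × ℂ :=
    (Ψ₀.codRestrict _ hΨ₀).prod
      ((LinearMap.proj (QuotientGroup.mk 1 : G ⧸ Γ)).comp (LinearMap.snd ℂ P (G ⧸ Γ → ℂ)))
  have hΨ : Function.Injective Ψ := by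
    rw [← LinearMap.ker_eq_bot, LinearMap.ker_eq_bot']
    intro p hp
    have hp1 : Ψ₀ p = 0 := congrArg Subtype.val (congrArg Prod.fst hp)
    have hp2 : p.2 (QuotientGroup.mk 1) = 0 := congrArg Prod.snd hp
    obtain ⟨h1, h2⟩ := pbPsi_eq_zero Γ S T hgen p.1 p.2 hp1 hp2
    exact Prod.ext (Subtype.ext h1) h2
  haveI : Module.Finite ℂ (P × (G ⧸ Γ → ℂ)) := Module.Finite.of_injective Ψ hΨ
  haveI : Module.Finite ℂ P :=
    Module.Finite.of_injective (LinearMap.inl ℂ P (G ⧸ Γ → ℂ)) LinearMap.inl_injective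
  refine ⟨inferInstance, ?_⟩
  have h1 := LinearMap.finrank_le_finrank_of_injective hΨ
  rw [Module.finrank_prod, Module.finrank_prod, Module.finrank_self,
    Module.finrank_fintype_fun_eq_card] at h1
  have h2 := Subspace.finrank_add_finrank_dualCoannihilator_eq
    (LinearMap.range (pbTheta Γ S T))
  rw [Module.finrank_prod, Module.finrank_fintype_fun_eq_card] at h2
  let Θ : (pbInv Γ S × pbInv Γ (S * T) × pbInv Γ T) →ₗ[ℂ]
      LinearMap.range (pbTheta Γ S T) × ℂ :=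
    (pbTheta Γ S T).rangeRestrict.prod
      ((LinearMap.proj (QuotientGroup.mk 1 : G ⧸ Γ)).comp
        ((pbInv Γ (S * T)).subtype.comp
          ((LinearMap.fst ℂ _ _).comp (LinearMap.snd ℂ _ _))))
  have hΘ : Function.Injective Θ := by
    rw [← LinearMap.ker_eq_bot, LinearMap.ker_eq_bot']
    intro w hw
    have hw1 : pbTheta Γ S T w = 0 := congrArg Subtype.val (congrArg Prod.fst hw)
    have hw2 : (w.2.1 : G ⧸ Γ → ℂ) (QuotientGroup.mk 1) = 0 := congrArg Prod.snd hw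
    exact pbTheta_eq_zero Γ S T hgen w hw1 hw2
  have h3 := LinearMap.finrank_le_finrank_of_injective hΘ
  rw [Module.finrank_prod, Module.finrank_prod, Module.finrank_prod, Module.finrank_self] at h3
  have hS := pb_cycOrbits_le Γ S
  have hU := pb_cycOrbits_le Γ (S * T)
  have hT := pb_cycOrbits_le Γ T
  rw [Nat.card_eq_fintype_card]
  omega

end fin

section special

open scoped MatrixGroups
open CongruenceSubgroup ModularCurve ModularGroup Matrix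

lemma pb_trace_conj (n : ℕ) (s : SL(2, ℤ)) :
    ((s⁻¹ * T ^ n * s : SL(2, ℤ)) : Matrix (Fin 2) (Fin 2) ℤ).trace = 2 := by
  have h1 : ((s⁻¹ * T ^ n * s : SL(2, ℤ)) : Matrix (Fin 2) (Fin 2) ℤ)
      = ((s⁻¹ * T ^ n : SL(2, ℤ)) : Matrix (Fin 2) (Fin 2) ℤ) * (s : Matrix (Fin 2) (Fin 2) ℤ) :=
    Matrix.SpecialLinearGroup.coe_mul _ _
  have h2 : (s : Matrix (Fin 2) (Fin 2) ℤ) * ((s⁻¹ * T ^ n : SL(2, ℤ)) : Matrix (Fin 2) (Fin 2) ℤ)
      = ((s * (s⁻¹ * T ^ n) : SL(2, ℤ)) : Matrix (Fin 2) (Fin 2) ℤ) :=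
    (Matrix.SpecialLinearGroup.coe_mul _ _).symm
  rw [h1, Matrix.trace_mul_comm, h2, mul_inv_cancel_left, ← zpow_natCast, coe_T_zpow,
    Matrix.trace_fin_two]
  simp

lemma pb_parabolic_vanish (N : ℕ) (φ : Additive (Gamma0 N) →+ ℂ)
    (hφ : φ ∈ Period.parabolicHoms ℂ (Gamma0 N) ℂ) (n : ℕ) (s : SL(2, ℤ))
    (h : s⁻¹ * T ^ n * s ∈ Gamma0 N) : φ (Additive.ofMul ⟨_, h⟩) = 0 := by
  apply hφ ⟨_, h⟩
  show ((s⁻¹ * T ^ n * s : SL(2, ℤ)) : Matrix (Fin 2) (Fin 2) ℤ).trace ^ 2 = 4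
  rw [pb_trace_conj]
  norm_num

/-- **ES3 (a)**: the space of parabolic homomorphisms `Γ₀(N) → ℂ` is finite-dimensional. -/
theorem finite_parabolicHoms (N : ℕ) [NeZero N] :
    Module.Finite ℂ (Period.parabolicHoms ℂ (Gamma0 N) ℂ) := by
  haveI : Fintype (SL(2, ℤ) ⧸ Gamma0 N) := Fintype.ofFinite _
  exact (pb_general (Gamma0 N) S T SpecialLinearGroup.SL2Z_generators
    (isOfFinOrder_iff_pow_eq_one.mpr ⟨4, by norm_num, by decide⟩)
    (isOfFinOrder_iff_pow_eq_one.mpr ⟨6, by norm_num, by decide⟩)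
    (Period.parabolicHoms ℂ (Gamma0 N) ℂ)
    (fun φ hφ n s h => pb_parabolic_vanish N φ hφ n s h)).1

/-- **ES3 (a)**, in the `FiniteDimensional` spelling of the S21 skeleton. -/
theorem finiteDimensional_parabolicHoms (N : ℕ) [NeZero N] :
    FiniteDimensional ℂ (Period.parabolicHoms ℂ (Gamma0 N) ℂ) :=
  finite_parabolicHoms N

/-- **ES3 (b)**: `dim Hom_par(Γ₀(N), ℂ) ≤ 2 g(X₀(N))`. -/
theorem finrank_parabolicHoms_le (N : ℕ) [NeZero N] :
    (Module.finrank ℂ (Period.parabolicHoms ℂ (Gamma0 N) ℂ) : ℚ) ≤ 2 * genusFormula N := by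
  haveI : Fintype (SL(2, ℤ) ⧸ Gamma0 N) := Fintype.ofFinite _
  have h := (pb_general (Gamma0 N) S T SpecialLinearGroup.SL2Z_generators
    (isOfFinOrder_iff_pow_eq_one.mpr ⟨4, by norm_num, by decide⟩)
    (isOfFinOrder_iff_pow_eq_one.mpr ⟨6, by norm_num, by decide⟩)
    (Period.parabolicHoms ℂ (Gamma0 N) ℂ)
    (fun φ hφ n s h => pb_parabolic_vanish N φ hφ n s h)).2
  have h1 := orbCount_S N
  have h2 := orbCount_ST N
  have h3 := orbCount_T N
  have h4 := card_quot_Gamma0 N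
  unfold orbCount at h1 h2 h3
  rw [h4, h3] at h
  have hq : (Module.finrank ℂ (Period.parabolicHoms ℂ (Gamma0 N) ℂ) : ℚ)
      + (cycOrbits (SL(2, ℤ) ⧸ Gamma0 N) S : ℚ) + (cycOrbits (SL(2, ℤ) ⧸ Gamma0 N) (S * T) : ℚ)
      + (cuspCount N : ℚ) ≤ (dedekindPsi N : ℚ) + 2 := by exact_mod_cast h
  have h1q : (2 : ℚ) * (cycOrbits (SL(2, ℤ) ⧸ Gamma0 N) S : ℚ)
      = (dedekindPsi N : ℚ) + (nuTwo N : ℚ) := by exact_mod_cast h1
  have h2q : (3 : ℚ) * (cycOrbits (SL(2, ℤ) ⧸ Gamma0 N) (S * T) : ℚ)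
      = (dedekindPsi N : ℚ) + 2 * (nuThree N : ℚ) := by exact_mod_cast h2
  unfold genusFormula
  linarith

end special

end Fermat.Agent.S21
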