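import Fermat.Agent.S21.EsPrim
import Fermat.Agent.S21.EsPar
import Fermat.Agent.S21.Inject
import Fermat.Agent.S21.ParBound
import Fermat.Prelude.Def_ModularCurve_GenusNumerics

/-!
# S21, final assembly: Eichler–Shimura from the dimension formula

`periodHomPair N` is injective with image inside the parabolic homomorphisms, whose dimension is
at most `2 g`; given `dim S₂(Γ₀(N)) = g` the image is everything.
-/

set_option autoImplicit false

open UpperHalfPlane CongruenceSubgroup Filter Topology ModularCurve ModularCurve.Period
open scoped MatrixGroups ModularForm Manifold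

noncomputable section

namespace Fermat.Agent.S21

theorem periodHomPair_inj (N : ℕ) [NeZero N] : Function.Injective (periodHomPair N) :=
  periodHomPair_injective N (existsPeriodMapLinear N) (exists_hasEquivariantPrimitive N)

theorem range_periodHomPair_le (N : ℕ) [NeZero N] :
    LinearMap.range (periodHomPair N) ≤ parabolicHoms ℂ (Gamma0 N) ℂ := by
  rw [periodHomPair_eq]
  rintro _ ⟨⟨f, g⟩, rfl⟩
  simp only [LinearMap.coprod_apply, LinearMap.comp_apply, LinearMap.add_apply,
    LinearMap.sub_apply, LinearMap.id_apply, pml_apply]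
  have hf := periodMap_mem_parabolicHoms N f
  have hg := periodMap_mem_parabolicHoms N g
  exact Submodule.add_mem _ (Submodule.add_mem _ hf (charInvolution_mem_parabolicHoms N ℂ ℂ hf))
    (Submodule.sub_mem _ hg (charInvolution_mem_parabolicHoms N ℂ ℂ hg))

/-- **Eichler–Shimura**, given the dimension formula `dim S₂(Γ₀(N)) = g(X₀(N))`. -/
theorem eichlerShimura_of_finrank (N : ℕ) [NeZero N]
    (hdim : (Module.finrank ℂ (CuspForm (Gamma0 N) 2) : ℚ) = genusFormula N) :
    Function.Injective (periodHomPair N)
      ∧ LinearMap.range (periodHomPair N) = parabolicHoms ℂ (Gamma0 N) ℂ := by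
  have hinj := periodHomPair_inj N
  refine ⟨hinj, ?_⟩
  have := finiteDimensional_parabolicHoms N
  have hle := range_periodHomPair_le N
  have : FiniteDimensional ℂ (LinearMap.range (periodHomPair N)) :=
    Submodule.finiteDimensional_of_le hle
  have e := LinearEquiv.ofInjective (periodHomPair N) hinj
  have : FiniteDimensional ℂ (CuspForm (Gamma0 N) 2 × CuspForm (Gamma0 N) 2) :=
    Module.Finite.equiv e.symm
  have : FiniteDimensional ℂ (CuspForm (Gamma0 N) 2) :=
    Module.Finite.of_injective (LinearMap.inl ℂ (CuspForm (Gamma0 N) 2) (CuspForm (Gamma0 N) 2))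
      LinearMap.inl_injective
  have h1 : Module.finrank ℂ (LinearMap.range (periodHomPair N))
      = 2 * Module.finrank ℂ (CuspForm (Gamma0 N) 2) := by
    rw [← e.finrank_eq, Module.finrank_prod]
    ring
  apply Submodule.eq_of_le_of_finrank_le hle
  have h2 := finrank_parabolicHoms_le N
  have h3 : (Module.finrank ℂ (parabolicHoms ℂ (Gamma0 N) ℂ) : ℚ)
      ≤ (Module.finrank ℂ (LinearMap.range (periodHomPair N)) : ℚ) := by
    rw [h1]
    push_cast
    rw [hdim]
    exact h2
  exact_mod_cast h3

end Fermat.Agent.S21
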