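import Mathlib
import Fermat.Prelude.Def_ModularCurve_PeriodHomPair
import Fermat.Agent.S22.CuspAdm

/-!
# S21 (Eichler–Shimura): shared definitions

All declarations of the S21 project live in `namespace Fermat.Agent.S21`.
-/

set_option autoImplicit false

open UpperHalfPlane CongruenceSubgroup Filter Topology ModularCurve ModularCurve.Period
open scoped MatrixGroups ModularForm Manifold

noncomputable section

namespace Fermat.Agent.S21

/-- The Eichler integral `F_f(τ) = ∫_{i∞}^τ f` of a weight-2 cusp form: the primitive of `f`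
with exponential decay on vertical strips. -/
def esF {N : ℕ} (f : CuspForm (Gamma0 N) 2) : ℍ → ℂ := Fermat.Agent.S22.prim0 (f : ℍ → ℂ)

/-- The point `-conj τ` of the upper half plane. -/
def negConj (τ : ℍ) : ℍ := ⟨-(starRingEnd ℂ) (τ : ℂ), by
  simpa using τ.im_pos⟩

@[simp] theorem coe_negConj (τ : ℍ) : (negConj τ : ℂ) = -(starRingEnd ℂ) (τ : ℂ) := rfl

end Fermat.Agent.S21
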