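import Fermat.Agent.S21.Defs

/-!
# S21, piece ES1: the Eichler integral is the equivariant primitive

For a weight-2 cusp form `f` on `Γ₀(N)`, `esF f` is the unique primitive of `f` tending to `0`
at `i∞`; it satisfies all the requirements of `ModularCurve.HasEquivariantPrimitive`, hence
computes `ModularCurve.periodMap`, which is therefore linear.
-/

set_option autoImplicit false

open UpperHalfPlane CongruenceSubgroup Filter Topology ModularCurve ModularCurve.Period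
open scoped MatrixGroups ModularForm Manifold

noncomputable section

namespace Fermat.Agent.S21

open Fermat.Agent.S22 (StripDecay HasDerivH Good prim0 prim0_hasDerivH prim0_stripDecay
  prim0_unique adm_cuspForm)

/-! ### Translations -/

theorem esp_T_zpow_smul (n : ℤ) (τ : ℍ) :
    ((ModularGroup.T ^ n : SL(2, ℤ)) : GL (Fin 2) ℝ) • τ = (n : ℝ) +ᵥ τ := by
  have h : ((ModularGroup.T ^ n : SL(2, ℤ)) : GL (Fin 2) ℝ) • τ = (ModularGroup.T ^ n) • τ := rfl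
  rw [h, modular_T_zpow_smul]

theorem esp_denom_T_zpow (n : ℤ) (τ : ℍ) :
    denom ((ModularGroup.T ^ n : SL(2, ℤ)) : GL (Fin 2) ℝ) τ = 1 := by
  rw [Fermat.Agent.S22.denom_coe_SL]
  have h10 : (ModularGroup.T ^ n : SL(2, ℤ)) 1 0 = 0 := by
    rw [ModularGroup.coe_T_zpow]; simp
  have h11 : (ModularGroup.T ^ n : SL(2, ℤ)) 1 1 = 1 := by
    rw [ModularGroup.coe_T_zpow]; simp
  rw [h10, h11]
  simp

theorem esp_T_zpow_10 (n : ℤ) : ((ModularGroup.T ^ n : SL(2, ℤ)) : GL (Fin 2) ℝ) 1 0 = 0 := by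
  have h10 : (ModularGroup.T ^ n : SL(2, ℤ)) 1 0 = 0 := by
    rw [ModularGroup.coe_T_zpow]; simp
  have : ((ModularGroup.T ^ n : SL(2, ℤ)) : GL (Fin 2) ℝ) 1 0
      = (((ModularGroup.T ^ n : SL(2, ℤ)) 1 0 : ℤ) : ℝ) := rfl
  rw [this, h10]
  simp

/-- The strip-decaying primitive of a function invariant under `τ ↦ τ + n` is invariant. -/
theorem esp_prim0_vadd {g : ℍ → ℂ} (hg : Good g) (n : ℤ) (hper : ∀ τ : ℍ, g ((n : ℝ) +ᵥ τ) = g τ)
    (τ : ℍ) : prim0 g ((n : ℝ) +ᵥ τ) = prim0 g τ := by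
  have hdet := Fermat.Agent.S22.det_coe_SL_pos (ModularGroup.T ^ n)
  have D1 := (prim0_hasDerivH hg.1 hg.2).comp_smul
    (g := ((ModularGroup.T ^ n : SL(2, ℤ)) : GL (Fin 2) ℝ)) hdet
  have D2 : HasDerivH (fun τ => prim0 g ((n : ℝ) +ᵥ τ)) g := by
    have : (fun τ : ℍ => prim0 g ((n : ℝ) +ᵥ τ))
        = fun τ => prim0 g (((ModularGroup.T ^ n : SL(2, ℤ)) : GL (Fin 2) ℝ) • τ) := by
      funext τ; rw [esp_T_zpow_smul]
    rw [this]
    refine D1.congr_deriv fun τ => ?_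
    rw [esp_T_zpow_smul, hper, esp_denom_T_zpow, Fermat.Agent.S22.det_coe_SL]
    simp
  have S2 : StripDecay (fun τ => prim0 g ((n : ℝ) +ᵥ τ)) := by
    have : (fun τ : ℍ => prim0 g ((n : ℝ) +ᵥ τ))
        = fun τ => prim0 g (((ModularGroup.T ^ n : SL(2, ℤ)) : GL (Fin 2) ℝ) • τ) := by
      funext τ; rw [esp_T_zpow_smul]
    rw [this]
    exact (prim0_stripDecay hg.1 hg.2).comp_smul hdet (esp_T_zpow_10 n)
  exact congrFun (prim0_unique hg.1 hg.2 D2 S2) τ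

/-- Strip decay plus periodicity gives decay at `i∞`. -/
theorem esp_tendsto_of_periodic {P : ℍ → ℂ} (hd : StripDecay P) {M : ℕ} (hM : 0 < M)
    (hper : ∀ (n : ℤ) (τ : ℍ), P (((n * (M : ℤ) : ℤ) : ℝ) +ᵥ τ) = P τ) :
    Tendsto P atImInfty (𝓝 0) := by
  show IsZeroAtImInfty P
  rw [isZeroAtImInfty_iff]
  intro ε hε
  obtain ⟨C, c, A, hC, hc, hA, H⟩ := hd.exists_pos M
  have hMpos : (0 : ℝ) < M := by exact_mod_cast hM
  refine ⟨max A (max 1 (C / (c * ε))), fun z hz => ?_⟩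
  have hzA : A ≤ z.im := le_trans (le_max_left _ _) hz
  have hz1 : 1 ≤ z.im := le_trans (le_trans (le_max_left _ _) (le_max_right _ _)) hz
  have hzC : C / (c * ε) ≤ z.im := le_trans (le_trans (le_max_right _ _) (le_max_right _ _)) hz
  set n : ℤ := ⌊z.re / M⌋ with hn
  set z' : ℍ := (((-n * (M : ℤ) : ℤ) : ℝ)) +ᵥ z with hz'
  have hPz : P z' = P z := hper (-n) z
  have him : z'.im = z.im := by rw [hz']; simp
  have hre : z'.re = z.re - n * M := by rw [hz']; simp; ring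
  have hfl1 : (n : ℝ) ≤ z.re / M := Int.floor_le _
  have hfl2 : z.re / M < n + 1 := Int.lt_floor_add_one _
  have h1 : (n : ℝ) * M ≤ z.re := by
    have := (le_div_iff₀ hMpos).mp hfl1
    linarith
  have h2 : z.re < (n + 1) * M := by
    have := (div_lt_iff₀ hMpos).mp hfl2
    linarith
  have habs : |z'.re| ≤ M := by
    rw [hre, abs_le]
    constructor <;> nlinarith
  have hb := H z' (by rw [him]; exact hzA) habs
  rw [hPz, him] at hb
  refine hb.trans ?_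
  have hcy : 0 < c * z.im := mul_pos hc (by linarith)
  have hexp : Real.exp (-c * z.im) ≤ 1 / (c * z.im) := by
    rw [show -c * z.im = -(c * z.im) by ring, Real.exp_neg, one_div]
    apply inv_anti₀ hcy
    have := Real.add_one_le_exp (c * z.im)
    linarith
  calc C * Real.exp (-c * z.im) ≤ C * (1 / (c * z.im)) := mul_le_mul_of_nonneg_left hexp hC
    _ = C / (c * z.im) := by ring
    _ ≤ ε := by
      rw [div_le_iff₀ hcy]
      have := (div_le_iff₀ (mul_pos hc hε)).mp hzC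
      nlinarith

/-! ### Cusp forms of weight 2 on `Γ₀(N)` -/

/-- A common period for all `SL(2,ℤ)`-translates of cusp forms on `Γ₀(N)`. -/
theorem esp_exists_period (N : ℕ) [NeZero N] :
    ∃ M : ℕ, 0 < M ∧ ∀ (f : CuspForm (Gamma0 N) 2) (δ : SL(2, ℤ)) (n : ℤ) (τ : ℍ),
      ((f : ℍ → ℂ) ∣[(2 : ℤ)] δ) (((n * (M : ℤ) : ℤ) : ℝ) +ᵥ τ) = ((f : ℍ → ℂ) ∣[(2 : ℤ)] δ) τ := by
  obtain ⟨M, hM, hper⟩ := Subgroup.IsArithmetic.exists_nat_mem_strictPeriods_conj
    ((CongruenceSubgroup.Gamma0 N : Subgroup SL(2, ℤ)) : Subgroup (GL (Fin 2) ℝ))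
  refine ⟨M, hM, fun f δ n τ => ?_⟩
  have hperγ := hper δ⁻¹
  rw [map_inv] at hperγ
  have hcoe : ⇑(CuspForm.translate f (Matrix.SpecialLinearGroup.mapGL ℝ δ))
      = (f : ℍ → ℂ) ∣[(2 : ℤ)] δ := rfl
  have hmem := AddSubgroup.zsmul_mem _ hperγ n
  have hcast : n • (M : ℝ) = (((n * (M : ℤ) : ℤ)) : ℝ) := by
    push_cast
    simp
  rw [hcast] at hmem
  have := SlashInvariantForm.vAdd_apply_of_mem_strictPeriods
    (CuspForm.translate f (Matrix.SpecialLinearGroup.mapGL ℝ δ)) τ hmem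
  rw [hcoe] at this
  exact this

theorem esp_good {N : ℕ} [NeZero N] (f : CuspForm (Gamma0 N) 2) (δ : SL(2, ℤ)) :
    Good ((f : ℍ → ℂ) ∣[(2 : ℤ)] δ) := adm_cuspForm N 2 f δ

theorem esp_good_self {N : ℕ} [NeZero N] (f : CuspForm (Gamma0 N) 2) : Good (f : ℍ → ℂ) :=
  (adm_cuspForm N 2 f).good

theorem esF_hasDerivH {N : ℕ} [NeZero N] (f : CuspForm (Gamma0 N) 2) :
    HasDerivH (esF f) (f : ℍ → ℂ) :=
  prim0_hasDerivH (esp_good_self f).1 (esp_good_self f).2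

theorem esF_hasDerivAt {N : ℕ} [NeZero N] (f : CuspForm (Gamma0 N) 2) (τ : ℍ) :
    HasDerivAt (esF f ∘ ofComplex) (f τ) (τ : ℂ) := esF_hasDerivH f τ

theorem esF_stripDecay {N : ℕ} [NeZero N] (f : CuspForm (Gamma0 N) 2) : StripDecay (esF f) :=
  prim0_stripDecay (esp_good_self f).1 (esp_good_self f).2

/-- `F_f ∘ δ` is a primitive of `f ∣[2] δ`. -/
theorem esF_comp_hasDerivH {N : ℕ} [NeZero N] (f : CuspForm (Gamma0 N) 2) (δ : SL(2, ℤ)) :
    HasDerivH (fun τ => esF f (δ • τ)) ((f : ℍ → ℂ) ∣[(2 : ℤ)] δ) := by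
  have D1 := (esF_hasDerivH f).comp_smul (g := (δ : GL (Fin 2) ℝ))
    (Fermat.Agent.S22.det_coe_SL_pos δ)
  refine D1.congr_deriv fun τ => ?_
  rw [ModularForm.SL_slash_apply, Fermat.Agent.S22.det_coe_SL]
  have h : δ • τ = (δ : GL (Fin 2) ℝ) • τ := rfl
  have hD : denom (δ : GL (Fin 2) ℝ) τ ≠ 0 := denom_ne_zero _ τ
  rw [h]
  have e : denom (δ : GL (Fin 2) ℝ) τ ^ (-(2 : ℤ)) = 1 / denom (δ : GL (Fin 2) ℝ) τ ^ 2 := by
    rw [zpow_neg, one_div]
    norm_cast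
  have hd' : denom δ τ = denom (δ : GL (Fin 2) ℝ) τ := rfl
  rw [hd', e]
  simp

/-- `F_f ∘ δ = prim0 (f ∣[2] δ) + const`. -/
theorem esF_comp_eq {N : ℕ} [NeZero N] (f : CuspForm (Gamma0 N) 2) (δ : SL(2, ℤ)) (τ : ℍ) :
    esF f (δ • τ) = prim0 ((f : ℍ → ℂ) ∣[(2 : ℤ)] δ) τ
      + (esF f (δ • UpperHalfPlane.I) - prim0 ((f : ℍ → ℂ) ∣[(2 : ℤ)] δ) UpperHalfPlane.I) := by
  have D2 := prim0_hasDerivH (esp_good f δ).1 (esp_good f δ).2
  have D3 : HasDerivH (fun τ => esF f (δ • τ) - prim0 ((f : ℍ → ℂ) ∣[(2 : ℤ)] δ) τ)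
      (fun _ => 0) := ((esF_comp_hasDerivH f δ).sub D2).congr_deriv fun τ => sub_self _
  have key := D3.eq_of_deriv_zero τ UpperHalfPlane.I
  linear_combination key

/-- The strip-decaying primitive of `f ∣[2] δ` tends to `0` at `i∞`. -/
theorem esp_prim0_slash_tendsto {N : ℕ} [NeZero N] (f : CuspForm (Gamma0 N) 2) (δ : SL(2, ℤ)) :
    Tendsto (prim0 ((f : ℍ → ℂ) ∣[(2 : ℤ)] δ)) atImInfty (𝓝 0) := by
  obtain ⟨M, hM, hper⟩ := esp_exists_period N
  refine esp_tendsto_of_periodic (prim0_stripDecay (esp_good f δ).1 (esp_good f δ).2) hM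
    fun n τ => ?_
  exact esp_prim0_vadd (esp_good f δ) (n * (M : ℤ)) (fun τ => hper f δ n τ) τ

theorem esF_tendsto {N : ℕ} [NeZero N] (f : CuspForm (Gamma0 N) 2) :
    Tendsto (esF f) atImInfty (𝓝 0) := by
  have h := esp_prim0_slash_tendsto f 1
  have h1 : ((f : ℍ → ℂ) ∣[(2 : ℤ)] (1 : SL(2, ℤ))) = f := SlashAction.slash_one _ _
  rw [h1] at h
  exact h

/-- Uniqueness of the primitive vanishing at `i∞`. -/
theorem esF_unique {N : ℕ} [NeZero N] {f : CuspForm (Gamma0 N) 2} {G : ℍ → ℂ}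
    (hd : ∀ τ : ℍ, HasDerivAt (G ∘ ofComplex) (f τ) (τ : ℂ)) (h0 : Tendsto G atImInfty (𝓝 0)) :
    G = esF f := by
  have hG : HasDerivH G (f : ℍ → ℂ) := hd
  have D : HasDerivH (fun τ => G τ - esF f τ) (fun _ => 0) :=
    (hG.sub (esF_hasDerivH f)).congr_deriv fun τ => sub_self _
  have hconst : ∀ τ, G τ - esF f τ = G UpperHalfPlane.I - esF f UpperHalfPlane.I :=
    fun τ => D.eq_of_deriv_zero τ UpperHalfPlane.I
  have hlim : Tendsto (fun τ => G τ - esF f τ) atImInfty (𝓝 (0 - 0)) := h0.sub (esF_tendsto f)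
  have hlim2 : Tendsto (fun τ : ℍ => G τ - esF f τ) atImInfty
      (𝓝 (G UpperHalfPlane.I - esF f UpperHalfPlane.I)) := by
    have : (fun τ : ℍ => G τ - esF f τ)
        = fun _ => G UpperHalfPlane.I - esF f UpperHalfPlane.I := funext hconst
    rw [this]
    exact tendsto_const_nhds
  have h00 := tendsto_nhds_unique hlim hlim2
  funext τ
  have := hconst τ
  rw [← h00] at this
  linear_combination this

/-- Behaviour at an arbitrary cusp `δ(i∞)`: `F_f ∘ δ = P + c` with `P` holomorphic, periodic and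
tending to `0` at `i∞`. -/
theorem esF_cusp {N : ℕ} [NeZero N] (f : CuspForm (Gamma0 N) 2) (δ : SL(2, ℤ)) :
    ∃ (c : ℂ) (P : ℍ → ℂ) (M : ℕ), 0 < M ∧ MDifferentiable 𝓘(ℂ) 𝓘(ℂ) P ∧
      (∀ τ : ℍ, P ((M : ℝ) +ᵥ τ) = P τ) ∧ Tendsto P atImInfty (𝓝 0) ∧
      ∀ τ : ℍ, esF f (δ • τ) = P τ + c := by
  obtain ⟨M, hM, hper⟩ := esp_exists_period N
  refine ⟨esF f (δ • UpperHalfPlane.I) - prim0 ((f : ℍ → ℂ) ∣[(2 : ℤ)] δ) UpperHalfPlane.I,
    prim0 ((f : ℍ → ℂ) ∣[(2 : ℤ)] δ), M, hM,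
    (prim0_hasDerivH (esp_good f δ).1 (esp_good f δ).2).mdifferentiable, fun τ => ?_,
    esp_prim0_slash_tendsto f δ, esF_comp_eq f δ⟩
  have h := esp_prim0_vadd (esp_good f δ) (1 * (M : ℤ)) (fun τ => hper f δ 1 τ) τ
  have hc : (((1 * (M : ℤ) : ℤ)) : ℝ) = (M : ℝ) := by push_cast; ring
  rw [hc] at h
  exact h

theorem esF_equivariant {N : ℕ} [NeZero N] (f : CuspForm (Gamma0 N) 2) :
    IsEquivariantPrimitive (Gamma0 N) (esF f) := by
  intro γ
  refine ⟨esF f ((γ : SL(2, ℤ)) • UpperHalfPlane.I) - esF f UpperHalfPlane.I, fun z => ?_⟩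
  have hsl : ((f : ℍ → ℂ) ∣[(2 : ℤ)] (γ : SL(2, ℤ))) = f :=
    f.slash_action_eq' _ ⟨γ, γ.2, rfl⟩
  have D1 := esF_comp_hasDerivH f (γ : SL(2, ℤ))
  rw [hsl] at D1
  have D : HasDerivH (fun τ => esF f ((γ : SL(2, ℤ)) • τ) - esF f τ) (fun _ => 0) :=
    (D1.sub (esF_hasDerivH f)).congr_deriv fun τ => sub_self _
  exact D.eq_of_deriv_zero z UpperHalfPlane.I

theorem esF_cusp_limit {N : ℕ} [NeZero N] (f : CuspForm (Gamma0 N) 2) (δ : SL(2, ℤ)) :
    ∃ L : ℂ, Tendsto (fun w : ℍ => esF f (δ • w)) atImInfty (𝓝 L) := by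
  obtain ⟨c, P, M, -, -, -, hP, hc⟩ := esF_cusp f δ
  refine ⟨0 + c, ?_⟩
  have : (fun w : ℍ => esF f (δ • w)) = fun w => P w + c := funext hc
  rw [this]
  exact hP.add tendsto_const_nhds

theorem hasEquivariantPrimitive_esF (N : ℕ) [NeZero N] (f : CuspForm (Gamma0 N) 2) :
    HasEquivariantPrimitive N f (esF f) :=
  ⟨esF_hasDerivAt f, esF_tendsto f, esF_equivariant f, esF_cusp_limit f⟩

theorem exists_hasEquivariantPrimitive (N : ℕ) [NeZero N] (f : CuspForm (Gamma0 N) 2) :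
    ∃ F : ℍ → ℂ, HasEquivariantPrimitive N f F := ⟨esF f, hasEquivariantPrimitive_esF N f⟩

theorem periodMap_apply (N : ℕ) [NeZero N] (f : CuspForm (Gamma0 N) 2) (γ : Gamma0 N) (τ : ℍ) :
    periodMap N f (Additive.ofMul γ) = esF f ((γ : SL(2, ℤ)) • τ) - esF f τ := by
  obtain ⟨F₀, h₀, hpm⟩ := periodMap_def N f (hasEquivariantPrimitive_esF N f)
  have hF₀ : F₀ = esF f := esF_unique h₀.1 h₀.2.1
  subst hF₀
  rw [hpm, IsEquivariantPrimitive.periodHom_apply, ← h₀.2.2.1.sub_eq_period γ τ]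

theorem esF_add {N : ℕ} [NeZero N] (f g : CuspForm (Gamma0 N) 2) :
    esF (f + g) = esF f + esF g := by
  symm
  apply esF_unique
  · intro τ
    exact (esF_hasDerivAt f τ).add (esF_hasDerivAt g τ)
  · have h := (esF_tendsto f).add (esF_tendsto g)
    rw [add_zero] at h
    exact h

theorem esF_smul {N : ℕ} [NeZero N] (c : ℂ) (f : CuspForm (Gamma0 N) 2) :
    esF (c • f) = c • esF f := by
  symm
  apply esF_unique
  · intro τ
    exact (esF_hasDerivAt f τ).const_smul c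
  · have h := (esF_tendsto f).const_smul c
    rw [smul_zero] at h
    exact h

/-- The period map as a linear map. -/
def pml (N : ℕ) [NeZero N] : CuspForm (Gamma0 N) 2 →ₗ[ℂ] (Additive (Gamma0 N) →+ ℂ) where
  toFun f := periodMap N f
  map_add' f g := by
    refine AddMonoidHom.ext fun γ => ?_
    obtain ⟨γ, rfl⟩ := Additive.ofMul.surjective γ
    rw [AddMonoidHom.add_apply, periodMap_apply N _ γ UpperHalfPlane.I,
      periodMap_apply N _ γ UpperHalfPlane.I, periodMap_apply N _ γ UpperHalfPlane.I, esF_add]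
    simp only [Pi.add_apply]
    ring
  map_smul' c f := by
    refine AddMonoidHom.ext fun γ => ?_
    obtain ⟨γ, rfl⟩ := Additive.ofMul.surjective γ
    rw [RingHom.id_apply, AddMonoidHom.smul_apply, periodMap_apply N _ γ UpperHalfPlane.I,
      periodMap_apply N _ γ UpperHalfPlane.I, esF_smul]
    simp only [Pi.smul_apply, smul_eq_mul]
    ring

theorem pml_apply (N : ℕ) [NeZero N] (f : CuspForm (Gamma0 N) 2) : pml N f = periodMap N f := rfl

theorem existsPeriodMapLinear (N : ℕ) [NeZero N] : ExistsPeriodMapLinear N :=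
  ⟨pml N, pml_apply N⟩

theorem periodHomPair_eq (N : ℕ) [NeZero N] :
    periodHomPair N = LinearMap.coprod
      ((LinearMap.id + charInvolution N ℂ ℂ) ∘ₗ pml N)
      ((LinearMap.id - charInvolution N ℂ ℂ) ∘ₗ pml N) := by
  obtain ⟨p, hp, h⟩ := periodHomPair_def N (existsPeriodMapLinear N)
  have hpp : p = pml N := LinearMap.ext fun f => by rw [hp, pml_apply]
  rw [h, hpp]

end Fermat.Agent.S21
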