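import Mathlib

/-!
# S21 (Eichler–Shimura), piece ES2a : rigidity

A holomorphic function on the upper half plane whose real part is `Γ₀(N)`-invariant and which has
a limit at every cusp is constant (maximum principle on the compactified modular curve).
-/

set_option autoImplicit false

open UpperHalfPlane CongruenceSubgroup Filter Topology Function
open scoped MatrixGroups Manifold

namespace Fermat.Agent.S21

/-- A holomorphic function on a connected open set whose real part attains its maximum is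
constant. -/
theorem rig_eq_of_re_le {U : Set ℂ} (hU : IsOpen U) (hUc : IsPreconnected U) {φ : ℂ → ℂ}
    (hφ : DifferentiableOn ℂ φ U) {c : ℂ} (hc : c ∈ U) (hmax : ∀ z ∈ U, (φ z).re ≤ (φ c).re) :
    ∀ z ∈ U, φ z = φ c := by
  have hE : DifferentiableOn ℂ (fun z => Complex.exp (φ z)) U := hφ.cexp
  have hm : IsMaxOn (norm ∘ (fun z => Complex.exp (φ z))) U c := by
    intro z hz
    simp only [Function.comp, Complex.norm_exp]
    exact Real.exp_le_exp.mpr (hmax z hz)
  have hconst := Complex.eqOn_of_isPreconnected_of_isMaxOn_norm hUc hU hE hc hm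
  have hderiv : U.EqOn (deriv φ) 0 := by
    intro z hz
    have hφz : DifferentiableAt ℂ φ z := hφ.differentiableAt (hU.mem_nhds hz)
    have h1 : HasDerivAt (fun z => Complex.exp (φ z)) (Complex.exp (φ z) * deriv φ z) z :=
      hφz.hasDerivAt.cexp
    have h2 : HasDerivAt (fun z => Complex.exp (φ z)) 0 z := by
      have : (fun z => Complex.exp (φ z)) =ᶠ[𝓝 z] fun _ => Complex.exp (φ c) := by
        filter_upwards [hU.mem_nhds hz] with w hw using hconst hw
      exact (hasDerivAt_const z _).congr_of_eventuallyEq this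
    have h3 := h1.unique h2
    simpa [Complex.exp_ne_zero] using h3
  intro z hz
  exact hU.is_const_of_deriv_eq_zero hUc hφ hderiv hz hc

/-- A holomorphic function on `ℍ` whose real part attains its maximum is constant. -/
theorem rig_const_of_re_le {D : ℍ → ℂ} (hD : MDiff D) (c : ℍ)
    (h : ∀ z : ℍ, (D z).re ≤ (D c).re) : ∀ z : ℍ, D z = D c := by
  have hU : IsOpen {z : ℂ | 0 < z.im} := isOpen_upperHalfPlaneSet
  have hUc : IsPreconnected {z : ℂ | 0 < z.im} := (convex_halfSpace_im_gt 0).isPreconnected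
  have hφ : DifferentiableOn ℂ (D ∘ ofComplex) {z : ℂ | 0 < z.im} := mdifferentiable_iff.mp hD
  have key := rig_eq_of_re_le hU hUc hφ (c := (c : ℂ)) c.2 (fun z hz => by
    simp only [Function.comp, ofComplex_apply]
    rw [ofComplex_apply_of_im_pos hz]
    exact h ⟨z, hz⟩)
  intro z
  have := key z z.2
  simpa only [Function.comp, ofComplex_apply] using this

theorem rig_det_pos (δ : SL(2, ℤ)) :
    (0 : ℝ) < ((δ : GL (Fin 2) ℝ) : Matrix (Fin 2) (Fin 2) ℝ).det := by
  have : ((δ : GL (Fin 2) ℝ) : Matrix (Fin 2) (Fin 2) ℝ).det = 1 :=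
    (Matrix.SpecialLinearGroup.map (Int.castRingHom ℝ) δ).det_coe
  rw [this]; exact one_pos

theorem rig_mdiff_comp {G : ℍ → ℂ} (hG : MDiff G) (δ : SL(2, ℤ)) :
    MDiff (fun w : ℍ => G (δ • w)) :=
  hG.comp (mdifferentiable_smul (g := (δ : GL (Fin 2) ℝ)) (rig_det_pos δ))

theorem rig_tendsto_T_zpow (n : ℤ) :
    Tendsto (fun w : ℍ => ModularGroup.T ^ n • w) atImInfty atImInfty := by
  rw [atImInfty, tendsto_comap_iff]
  have : (im ∘ fun w : ℍ => ModularGroup.T ^ n • w) = im := by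
    funext w
    show (ModularGroup.T ^ n • w).im = w.im
    rw [modular_T_zpow_smul, vadd_im]
  rw [this]
  exact tendsto_comap

/-- The translates `G ∘ δ` are invariant under `T ^ N`. -/
theorem rig_periodic (N : ℕ) (G : ℍ → ℂ) (hG : MDiff G)
    (hinv : ∀ γ ∈ Gamma0 N, ∀ τ : ℍ, (G (γ • τ)).re = (G τ).re)
    (hlim : ∀ δ : SL(2, ℤ), ∃ L : ℂ, Tendsto (fun w : ℍ => G (δ • w)) atImInfty (𝓝 L))
    (δ : SL(2, ℤ)) (w : ℍ) :
    G (δ • (ModularGroup.T ^ (N : ℤ) • w)) = G (δ • w) := by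
  set γ : SL(2, ℤ) := δ * ModularGroup.T ^ (N : ℤ) * δ⁻¹ with hγ
  have hγmem : γ ∈ Gamma0 N := by
    have h1 : ModularGroup.T ^ (N : ℤ) ∈ Gamma N := by
      simpa using ModularGroup_T_pow_mem_Gamma (N : ℤ) (N : ℤ) dvd_rfl
    have h2 : γ ∈ Gamma N := (Gamma_normal N).conj_mem _ h1 δ
    rw [Gamma_mem] at h2
    rw [Gamma0_mem]
    exact h2.2.2.1
  -- the difference `G ∘ γ - G` has zero real part, hence is constant
  let D : ℍ → ℂ := fun z => G (γ • z) - G z
  have hD : MDiff D := (rig_mdiff_comp hG γ).sub hG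
  have hDre : ∀ z : ℍ, (D z).re = 0 := fun z => by
    simp only [D, Complex.sub_re, hinv γ hγmem z, sub_self]
  have hDconst : ∀ z : ℍ, D z = D (δ • w) :=
    rig_const_of_re_le hD (δ • w) (fun z => by rw [hDre, hDre])
  -- the constant is zero, by the limit at the cusp
  obtain ⟨L, hL⟩ := hlim δ
  have hL' : Tendsto (fun w : ℍ => G (δ • (ModularGroup.T ^ (N : ℤ) • w))) atImInfty (𝓝 L) :=
    hL.comp (rig_tendsto_T_zpow (N : ℤ))
  have hsub : Tendsto (fun w : ℍ => G (δ • (ModularGroup.T ^ (N : ℤ) • w)) - G (δ • w))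
      atImInfty (𝓝 (L - L)) := hL'.sub hL
  have hrel : ∀ w' : ℍ, G (δ • (ModularGroup.T ^ (N : ℤ) • w')) - G (δ • w') = D (δ • w) := by
    intro w'
    have := hDconst (δ • w')
    simp only [D] at this ⊢
    rw [← this]
    congr 2
    rw [hγ, mul_smul, mul_smul, inv_smul_smul]
  have hconst : Tendsto (fun w : ℍ => G (δ • (ModularGroup.T ^ (N : ℤ) • w)) - G (δ • w))
      atImInfty (𝓝 (D (δ • w))) := by
    have : (fun w' : ℍ => G (δ • (ModularGroup.T ^ (N : ℤ) • w')) - G (δ • w'))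
        = fun _ => D (δ • w) := funext hrel
    rw [this]
    exact tendsto_const_nhds
  have hzero : D (δ • w) = L - L := tendsto_nhds_unique hconst hsub
  have := hrel w
  rw [hzero, sub_self, sub_eq_zero] at this
  exact this

theorem rig_periodic_comp_ofComplex (N : ℕ) (G : ℍ → ℂ) (hG : MDiff G)
    (hinv : ∀ γ ∈ Gamma0 N, ∀ τ : ℍ, (G (γ • τ)).re = (G τ).re)
    (hlim : ∀ δ : SL(2, ℤ), ∃ L : ℂ, Tendsto (fun w : ℍ => G (δ • w)) atImInfty (𝓝 L))
    (δ : SL(2, ℤ)) :
    Periodic ((fun w : ℍ => G (δ • w)) ∘ ofComplex) (N : ℝ) := by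
  intro z
  by_cases hz : 0 < z.im
  · have hz' : 0 < (z + ((N : ℝ) : ℂ)).im := by simpa using hz
    simp only [comp_apply, ofComplex_apply_of_im_pos hz', ofComplex_apply_of_im_pos hz]
    have h := rig_periodic N G hG hinv hlim δ ⟨z, hz⟩
    rw [← h]
    congr 2
    rw [modular_T_zpow_smul]
    ext
    simp [add_comm]
  · have hz0 : z.im ≤ 0 := not_lt.mp hz
    have hz' : (z + ((N : ℝ) : ℂ)).im ≤ 0 := by simpa using hz0
    show G (δ • ofComplex (z + ((N : ℝ) : ℂ))) = G (δ • ofComplex z)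
    rw [ofComplex_apply_of_im_nonpos hz', ofComplex_apply_of_im_nonpos hz0]

/-- **Rigidity.** A holomorphic function on the upper half plane whose real part is
`Γ₀(N)`-invariant and which has a limit at every cusp is constant. -/
theorem rigidity (N : ℕ) [NeZero N] (G : ℍ → ℂ) (hG : MDiff G)
    (hinv : ∀ γ ∈ Gamma0 N, ∀ τ : ℍ, (G (γ • τ)).re = (G τ).re)
    (hlim : ∀ δ : SL(2, ℤ), ∃ L : ℂ, Tendsto (fun w : ℍ => G (δ • w)) atImInfty (𝓝 L)) :
    ∀ τ τ' : ℍ, G τ = G τ' := by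
  classical
  have hN : (0 : ℝ) < (N : ℝ) := Nat.cast_pos.mpr (NeZero.pos N)
  -- the translates and their cusp functions
  let f : SL(2, ℤ) → ℍ → ℂ := fun δ w => G (δ • w)
  have hfper : ∀ δ, Periodic (f δ ∘ ofComplex) (N : ℝ) :=
    rig_periodic_comp_ofComplex N G hG hinv hlim
  have hfhol : ∀ δ, MDiff (f δ) := fun δ => rig_mdiff_comp hG δ
  have hfbdd : ∀ δ, IsBoundedAtImInfty (f δ) := fun δ => by
    obtain ⟨L, hL⟩ := hlim δ
    exact hL.isBigO_one ℝ
  let φ : SL(2, ℤ) → ℂ → ℂ := fun δ => cuspFunction (N : ℝ) (f δ)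
  have hφdiff : ∀ δ, DifferentiableOn ℂ (φ δ) (Metric.ball 0 1) := fun δ =>
    differentiableOn_cuspFunction_ball hN (hfper δ) (hfhol δ) (hfbdd δ)
  have hφeq : ∀ δ (w : ℍ), φ δ (Periodic.qParam (N : ℝ) w) = G (δ • w) := fun δ w =>
    eq_cuspFunction w hN.ne' (hfper δ)
  -- the radius of the closed disc containing the image of `{im ≥ 1/2}`
  set ρ : ℝ := Real.exp (-Real.pi / N) with hρ
  have hρ1 : ρ < 1 := by
    rw [hρ, ← Real.exp_zero]
    exact Real.exp_lt_exp.mpr (div_neg_of_neg_of_pos (neg_lt_zero.mpr Real.pi_pos) hN)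
  have hρ0 : 0 ≤ ρ := (Real.exp_pos _).le
  have hsub : Metric.closedBall (0 : ℂ) ρ ⊆ Metric.ball 0 1 := Metric.closedBall_subset_ball hρ1
  -- maxima of the real parts on the closed disc
  have hmaxδ : ∀ δ, ∃ q ∈ Metric.closedBall (0 : ℂ) ρ,
      ∀ q' ∈ Metric.closedBall (0 : ℂ) ρ, (φ δ q').re ≤ (φ δ q).re := by
    intro δ
    have hcont : ContinuousOn (fun q => (φ δ q).re) (Metric.closedBall (0 : ℂ) ρ) :=
      Complex.continuous_re.comp_continuousOn ((hφdiff δ).continuousOn.mono hsub)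
    obtain ⟨q, hq, hmax⟩ :=
      (isCompact_closedBall (0 : ℂ) ρ).exists_isMaxOn ⟨0, by simp [hρ0]⟩ hcont
    exact ⟨q, hq, fun q' hq' => hmax hq'⟩
  choose qmax hqmem hqmax using hmaxδ
  -- finitely many cosets
  let Q := SL(2, ℤ) ⧸ Gamma0 N
  have : Finite Q := Subgroup.finite_quotient_of_finiteIndex
  let rep : Q → SL(2, ℤ) := fun x => (Quotient.out x)⁻¹
  obtain ⟨x₀, hx₀⟩ := Finite.exists_max (fun x : Q => (φ (rep x) (qmax (rep x))).re)
  set δ₀ := rep x₀ with hδ₀
  set M := (φ δ₀ (qmax δ₀)).re with hM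
  -- the global bound
  have hbound : ∀ z : ℍ, (G z).re ≤ M := by
    intro z
    obtain ⟨g, hg⟩ := ModularGroup.exists_one_half_le_im_smul z
    set w := g • z with hw
    let x : Q := QuotientGroup.mk g
    obtain ⟨γ₁, hγ₁⟩ : ∃ γ₁ : Gamma0 N, Quotient.out x = g * γ₁ :=
      QuotientGroup.mk_out_eq_mul (Gamma0 N) g
    have hz : z = (γ₁ : SL(2, ℤ)) • (rep x • w) := by
      simp only [rep, hγ₁, hw, mul_inv_rev]
      rw [mul_smul, inv_smul_smul, smul_inv_smul]
    have h1 : (G z).re = (G (rep x • w)).re := by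
      conv_lhs => rw [hz]
      exact hinv _ γ₁.2 _
    rw [h1, ← hφeq]
    have hqin : Periodic.qParam (N : ℝ) w ∈ Metric.closedBall (0 : ℂ) ρ := by
      rw [mem_closedBall_zero_iff, Periodic.norm_qParam, hρ]
      apply Real.exp_le_exp.mpr
      apply div_le_div_of_nonneg_right _ hN.le
      have hw2 : (1 : ℝ) / 2 ≤ (w : ℂ).im := hg
      nlinarith [Real.pi_pos]
    exact (hqmax (rep x) _ hqin).trans (hx₀ x)
  -- the bound on the whole open disc for the extremal translate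
  have hdisc : ∀ q ∈ Metric.ball (0 : ℂ) 1, (φ δ₀ q).re ≤ M := by
    have hne : ∀ q ∈ Metric.ball (0 : ℂ) 1, q ≠ 0 → (φ δ₀ q).re ≤ M := by
      intro q hq hq0
      have hq' : ‖q‖ < 1 := mem_ball_zero_iff.mp hq
      have him := Periodic.im_invQParam_pos_of_norm_lt_one hN hq' hq0
      have h2 := hφeq δ₀ ⟨Periodic.invQParam (N : ℝ) q, him⟩
      have h3 : Periodic.qParam (N : ℝ) ((⟨Periodic.invQParam (N : ℝ) q, him⟩ : ℍ) : ℂ) = q :=
        Periodic.qParam_right_inv hN.ne' hq0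
      rw [h3] at h2
      rw [h2]
      exact hbound _
    intro q hq
    rcases eq_or_ne q 0 with rfl | hq0
    · have hcont : ContinuousAt (fun q => (φ δ₀ q).re) 0 :=
        Complex.continuous_re.continuousAt.comp
          ((hφdiff δ₀).differentiableAt (Metric.ball_mem_nhds 0 one_pos)).continuousAt
      have htend : Tendsto (fun q => (φ δ₀ q).re) (𝓝[≠] 0) (𝓝 (φ δ₀ 0).re) :=
        hcont.tendsto.mono_left nhdsWithin_le_nhds
      refine le_of_tendsto htend ?_
      have hball : ∀ᶠ q in 𝓝[≠] (0 : ℂ), q ∈ Metric.ball (0 : ℂ) 1 :=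
        nhdsWithin_le_nhds (Metric.ball_mem_nhds 0 one_pos)
      filter_upwards [hball, self_mem_nhdsWithin] with q hq1 hq2
      exact hne q hq1 hq2
    · exact hne q hq hq0
  -- conclusion by the maximum principle
  have hconst := rig_eq_of_re_le Metric.isOpen_ball (convex_ball (0 : ℂ) 1).isPreconnected
    (hφdiff δ₀) (c := qmax δ₀) (hsub (hqmem δ₀)) hdisc
  have hG0 : ∀ w : ℍ, G (δ₀ • w) = φ δ₀ (qmax δ₀) := fun w => by
    rw [← hφeq]
    exact hconst _ (mem_ball_zero_iff.mpr (Periodic.norm_qParam_lt_one hN w.2))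
  intro τ τ'
  have h1 := hG0 (δ₀⁻¹ • τ)
  have h2 := hG0 (δ₀⁻¹ • τ')
  rw [smul_inv_smul] at h1 h2
  rw [h1, h2]

end Fermat.Agent.S21
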